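import Fermat.Agent.Jacobian.Sections
import Mathlib.RingTheory.Ideal.Maps
import Mathlib.Algebra.GroupWithZero.Associated

/-!
# Effective Cartier divisors given by local equations

An effective divisor is a family of regular local equations indexed by the points, dividing each
other on the overlaps. It gives a cocycle `O(D)` with its canonical section; the sections of
`O(D)⁻¹` are the functions divisible by the equations.
-/

set_option autoImplicit false

noncomputable section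

universe u

open CategoryTheory TopologicalSpace AlgebraicGeometry nonZeroDivisors

namespace Fermat.Agent.Jacobian

variable {X Y : Scheme.{u}}

/-- Divisibility by a regular element is local. -/
theorem dvd_of_cover {ι : Type*} {V : X.Opens} (O : ι → X.Opens) (hO : ∀ i, O i ≤ V)
    (hc : ∀ x ∈ V, ∃ i, x ∈ O i) {f a : Γ(X, V)}
    (hf : ∀ (W : X.Opens) (h : W ≤ V), res h f ∈ Γ(X, W)⁰)
    (h : ∀ i, res (hO i) f ∣ res (hO i) a) : f ∣ a := by
  choose c hc' using h
  refine ⟨glue O hO hc c fun i j W hi hj => ?_, ?_⟩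
  · refine (mul_cancel_left_mem_nonZeroDivisors (hf W (hi.trans (hO i)))).1 ?_
    have h1 := congrArg (res hi) (hc' i)
    have h2 := congrArg (res hj) (hc' j)
    simp only [map_mul, res_res] at h1 h2
    rw [← h1, ← h2]
  · exact eq_of_cover O hO hc fun i => by rw [map_mul, res_glue, ← hc' i]

/-- An effective Cartier divisor: regular local equations. -/
structure EffDiv (X : Scheme.{u}) : Type u where
  V : X → X.Opens
  mem : ∀ x, x ∈ V x
  f : ∀ x, Γ(X, V x)
  dvd : ∀ x y (W : X.Opens) (hx : W ≤ V x) (hy : W ≤ V y), res hy (f y) ∣ res hx (f x)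
  regular : ∀ x (W : X.Opens) (h : W ≤ V x), res h (f x) ∈ Γ(X, W)⁰

namespace EffDiv

variable (D : EffDiv X)

/-- The equation of `D` of index `x` on a smaller open. -/
def eqn (x : X) {W : X.Opens} (h : W ≤ D.V x) : Γ(X, W) := res h (D.f x)

@[simp] lemma res_eqn (x : X) {W W' : X.Opens} (h : W ≤ D.V x) (h' : W' ≤ W) :
    res h' (D.eqn x h) = D.eqn x (h'.trans h) :=
  res_res _ _ _

lemma eqn_mem_nonZeroDivisors (x : X) {W : X.Opens} (h : W ≤ D.V x) : D.eqn x h ∈ Γ(X, W)⁰ :=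
  D.regular x W h

lemma eqn_dvd_eqn (x y : X) {W : X.Opens} (hx : W ≤ D.V x) (hy : W ≤ D.V y) :
    D.eqn y hy ∣ D.eqn x hx :=
  D.dvd x y W hx hy

/-- The ratio of two equations on the overlap. -/
def ratio (x y : X) : Γ(X, D.V x ⊓ D.V y) :=
  (D.eqn_dvd_eqn x y inf_le_left inf_le_right).choose

lemma res_ratio_mul (x y : X) {W : X.Opens} (hx : W ≤ D.V x) (hy : W ≤ D.V y) :
    res (le_inf hx hy) (D.ratio x y) * D.eqn y hy = D.eqn x hx := by
  have := congrArg (res (le_inf hx hy)) (D.eqn_dvd_eqn x y inf_le_left inf_le_right).choose_spec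
  simp only [map_mul, res_eqn] at this
  rw [this, mul_comm]
  rfl

/-- The line bundle `O(D)`. -/
@[reducible] def cocycle : LineCocycle X where
  U := D.V
  mem := D.mem
  g := D.ratio
  g_self x W h :=
    (mul_cancel_right_mem_nonZeroDivisors (D.eqn_mem_nonZeroDivisors x (h.trans inf_le_left))).1
      (by rw [one_mul]; exact D.res_ratio_mul x x _ _)
  g_mul x y z W hxy hyz hxz := by
    refine (mul_cancel_right_mem_nonZeroDivisors
      (D.eqn_mem_nonZeroDivisors z (hxz.trans inf_le_right))).1 ?_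
    rw [mul_assoc, D.res_ratio_mul y z (hyz.trans inf_le_left) (hyz.trans inf_le_right),
      D.res_ratio_mul x y (hxy.trans inf_le_left) (hxy.trans inf_le_right),
      D.res_ratio_mul x z (hxz.trans inf_le_left) (hxz.trans inf_le_right)]

lemma tr_mul_eqn (x y : X) {W : X.Opens} (hx : W ≤ D.V x) (hy : W ≤ D.V y) :
    D.cocycle.tr x y hx hy * D.eqn y hy = D.eqn x hx :=
  D.res_ratio_mul x y hx hy

/-- The class of `O(D)`. -/
def cls : Pic X := Pic.mk D.cocycle

/-- The canonical section of `O(D)`. -/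
def canon (W : X.Opens) : D.cocycle.Sect W :=
  LineCocycle.Sect.mk (fun x => D.eqn x (W := W ⊓ D.V x) inf_le_right) fun x y V hW hx hy => by
    rw [res_eqn, res_eqn]
    exact (D.tr_mul_eqn x y hx hy).symm

@[simp] lemma at_canon (W : X.Opens) (x : X) {V : X.Opens} (hW : V ≤ W) (hx : V ≤ D.V x) :
    (D.canon W).at x hW hx = D.eqn x hx := by
  rw [canon, LineCocycle.Sect.at_mk, res_eqn]

@[simp] lemma restrict_canon {W W' : X.Opens} (h : W' ≤ W) :
    (D.canon W).restrict h = D.canon W' :=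
  LineCocycle.Sect.ext' fun x => by simp

/-- Multiplication by the canonical section: sections of `O(D)⁻¹` as functions. -/
def invToFun (W : X.Opens) : D.cocycle.inv.Sect W →ₗ[Γ(X, W)] Γ(X, W) where
  toFun s := (D.canon W).pair s
  map_add' s t := eq_of_cover (fun x => W ⊓ D.V x) (fun _ => inf_le_left)
    (fun z hz => ⟨z, hz, D.mem z⟩) fun x => by
      rw [map_add, LineCocycle.Sect.res_pair (D.canon W) (s + t) x inf_le_left inf_le_right,
        LineCocycle.Sect.res_pair (D.canon W) s x inf_le_left inf_le_right,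
        LineCocycle.Sect.res_pair (D.canon W) t x inf_le_left inf_le_right,
        LineCocycle.Sect.at_add, mul_add]
  map_smul' r s := LineCocycle.Sect.pair_smul_right r (D.canon W) s

lemma res_invToFun {W : X.Opens} (s : D.cocycle.inv.Sect W) (x : X) {V : X.Opens} (hW : V ≤ W)
    (hx : V ≤ D.V x) : res hW (D.invToFun W s) = D.eqn x hx * s.at x hW hx :=
  (LineCocycle.Sect.res_pair (D.canon W) s x hW hx).trans (by rw [at_canon])

lemma res_invToFun_restrict {W W' : X.Opens} (h : W' ≤ W) (s : D.cocycle.inv.Sect W) :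
    res h (D.invToFun W s) = D.invToFun W' (s.restrict h) :=
  eq_of_cover (fun x => W' ⊓ D.V x) (fun _ => inf_le_left) (fun z hz => ⟨z, hz, D.mem z⟩)
    fun x => by
      rw [res_res, D.res_invToFun s x (inf_le_left.trans h) inf_le_right,
        D.res_invToFun (s.restrict h) x inf_le_left inf_le_right, LineCocycle.Sect.at_restrict]

theorem invToFun_injective (W : X.Opens) : Function.Injective (D.invToFun W) := fun s t h => by
  refine LineCocycle.Sect.ext' fun x => ?_
  refine (mul_cancel_left_mem_nonZeroDivisors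
    (D.eqn_mem_nonZeroDivisors x (W := W ⊓ D.V x) inf_le_right)).1 ?_
  rw [← D.res_invToFun s x inf_le_left inf_le_right, h, D.res_invToFun t x inf_le_left inf_le_right]

theorem mem_range_invToFun {W : X.Opens} {a : Γ(X, W)} :
    a ∈ LinearMap.range (D.invToFun W) ↔
      ∀ x, D.eqn x (W := W ⊓ D.V x) inf_le_right ∣ res inf_le_left a := by
  constructor
  · rintro ⟨s, rfl⟩ x
    exact ⟨_, D.res_invToFun s x inf_le_left inf_le_right⟩
  · intro h
    choose c hc using h
    refine ⟨LineCocycle.Sect.mk c fun x y V hW hx hy => ?_, ?_⟩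
    · refine (mul_cancel_left_mem_nonZeroDivisors (D.eqn_mem_nonZeroDivisors x hx)).1 ?_
      have h1 := congrArg (res (le_inf hW hx)) (hc x)
      have h2 := congrArg (res (le_inf hW hy)) (hc y)
      simp only [map_mul, res_res, res_eqn] at h1 h2
      rw [← h1, LineCocycle.tr_inv]
      conv_rhs => rw [← mul_assoc, mul_comm (D.eqn x hx), D.tr_mul_eqn y x hy hx, ← h2]
    · refine eq_of_cover (fun x => W ⊓ D.V x) (fun _ => inf_le_left)
        (fun z hz => ⟨z, hz, D.mem z⟩) fun x => ?_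
      rw [D.res_invToFun _ x inf_le_left inf_le_right, LineCocycle.Sect.at_mk, res_refl, ← hc x]

/-- `E` is the pullback of `D`: corresponding equations are associated. -/
def IsPullback (h : Y ⟶ X) (D : EffDiv X) (E : EffDiv Y) : Prop :=
  ∀ (y : Y) (W : Y.Opens) (hE : W ≤ E.V y) (hD : W ≤ h ⁻¹ᵁ D.V (h y)),
    Associated (pb h hD (D.f (h y))) (E.eqn y hE)

theorem IsPullback.cls_eq {h : Y ⟶ X} {D : EffDiv X} {E : EffDiv Y} (hh : IsPullback h D E) :
    E.cls = Pic.comap h D.cls := by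
  let V : Y → Y.Opens := fun y => E.V y ⊓ h ⁻¹ᵁ D.V (h y)
  choose c hc using fun y => hh y (V y) inf_le_left inf_le_right
  refine (Pic.mk_eq_mk.2 ⟨⟨V, fun y => ⟨E.mem y, D.mem (h y)⟩, fun y => inf_le_right,
    fun y => inf_le_left, c, fun x y W hx hy => ?_⟩⟩).symm
  have hDx : W ≤ h ⁻¹ᵁ D.V (h x) := hx.trans inf_le_right
  have hDy : W ≤ h ⁻¹ᵁ D.V (h y) := hy.trans inf_le_right
  have h1 := congrArg (res hx) (hc x)
  have h2 := congrArg (res hy) (hc y)
  simp only [map_mul, res_pb, res_eqn] at h1 h2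
  have hreg : pb h hDy (D.f (h y)) ∈ Γ(Y, W)⁰ := by
    have := E.eqn_mem_nonZeroDivisors y (hy.trans inf_le_left)
    rw [← h2] at this
    exact (mul_mem_nonZeroDivisors.1 this).1
  refine (mul_cancel_right_mem_nonZeroDivisors hreg).1 ?_
  have hdx : W ≤ h ⁻¹ᵁ (D.V (h x) ⊓ D.V (h y)) := le_inf hDx hDy
  have h3 := congrArg (pb h hdx) (D.tr_mul_eqn (h x) (h y) inf_le_left inf_le_right)
  rw [map_mul, LineCocycle.tr, pb_res, eqn, eqn, pb_res, pb_res] at h3
  rw [mul_assoc, mul_comm (res hy _), h2, E.tr_mul_eqn, mul_assoc, LineCocycle.tr_comap, ← h1,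
    mul_comm (pb h _ (D.f (h x)))]
  exact congrArg (res hx (c x : Γ(Y, V x)) * ·) h3.symm

/-- A divisor whose equations are units gives the trivial class. -/
theorem cls_eq_one (hD : ∀ x, IsUnit (D.f x)) : D.cls = 1 := by
  refine (Pic.mk_eq_mk.2 ⟨⟨D.V, D.mem, fun _ => le_top, fun _ => le_rfl,
    fun x => (hD x).unit, fun x y W hx hy => ?_⟩⟩).symm
  rw [LineCocycle.tr_one, mul_one, IsUnit.unit_spec, IsUnit.unit_spec]
  exact D.tr_mul_eqn x y hx hy

/-- Sum of divisors. -/
@[reducible] protected def mul (E : EffDiv X) : EffDiv X where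
  V x := D.V x ⊓ E.V x
  mem x := ⟨D.mem x, E.mem x⟩
  f x := D.eqn x inf_le_left * E.eqn x inf_le_right
  dvd x y W hx hy := by
    simp only [map_mul, res_eqn]
    exact mul_dvd_mul (D.eqn_dvd_eqn x y _ _) (E.eqn_dvd_eqn x y _ _)
  regular x W h := by
    simp only [map_mul, res_eqn]
    exact mul_mem (D.eqn_mem_nonZeroDivisors x _) (E.eqn_mem_nonZeroDivisors x _)

theorem cls_mul (E : EffDiv X) : (D.mul E).cls = D.cls * E.cls := by
  refine Pic.mk_eq_mk.2 ⟨LineCocycle.Rel.ofEq (fun x => D.V x ⊓ E.V x)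
    (fun x => ⟨D.mem x, E.mem x⟩) (fun _ => le_rfl) (fun _ => le_rfl) fun x y W hx hy => ?_⟩
  refine (mul_cancel_right_mem_nonZeroDivisors
    ((D.mul E).eqn_mem_nonZeroDivisors y hy)).1 ?_
  rw [(D.mul E).tr_mul_eqn, LineCocycle.tr_mul]
  simp only [eqn, EffDiv.mul, map_mul, res_res]
  have h1 := D.res_ratio_mul x y (hx.trans inf_le_left) (hy.trans inf_le_left)
  have h2 := E.res_ratio_mul x y (hx.trans inf_le_right) (hy.trans inf_le_right)
  simp only [eqn] at h1 h2
  simp only [LineCocycle.tr, cocycle]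
  rw [← h1, ← h2]
  ring

end EffDiv

/-- `f` is an equation on `V` of the subscheme defined by the ideal `I` of the open `U`. -/
structure GenBy (U : X.Opens) (I : Ideal Γ(X, U)) (V : X.Opens) (f : Γ(X, V)) : Prop where
  dvd : ∀ (W : X.Opens) (hV : W ≤ V) (hU : W ≤ U), ∀ a ∈ I, res hV f ∣ res hU a
  mem : ∀ z ∈ V, z ∈ U → ∃ (W : X.Opens) (hV : W ≤ V) (hU : W ≤ U),
    z ∈ W ∧ res hV f ∈ I.map (res hU)
  unit : ∀ z ∈ V, z ∉ U → ∃ (W : X.Opens) (hV : W ≤ V), z ∈ W ∧ IsUnit (res hV f)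

namespace GenBy

variable {U : X.Opens} {I : Ideal Γ(X, U)} {V V' : X.Opens} {f : Γ(X, V)} {g : Γ(X, V')}

theorem dvd_of_mem_map (hg : GenBy U I V' g) {W : X.Opens} (hV : W ≤ V') (hU : W ≤ U)
    {a : Γ(X, W)} (ha : a ∈ I.map (res hU)) : res hV g ∣ a := by
  rw [← Ideal.mem_span_singleton]
  refine (Ideal.map_le_iff_le_comap.2 fun b hb => ?_) ha
  rw [Ideal.mem_comap, Ideal.mem_span_singleton]
  exact hg.dvd W hV hU b hb

/-- A regular equation divides any other one. -/
theorem dvd_of_regular (hf : GenBy U I V f) (hg : GenBy U I V' g)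
    (hreg : ∀ (W : X.Opens) (h : W ≤ V'), res h g ∈ Γ(X, W)⁰)
    {W : X.Opens} (hV : W ≤ V) (hV' : W ≤ V') : res hV' g ∣ res hV f := by
  classical
  have key : ∀ z : W, ∃ (O : X.Opens) (hO : O ≤ W), z.1 ∈ O ∧
      res (hO.trans hV') g ∣ res (hO.trans hV) f := by
    intro z
    by_cases hz : z.1 ∈ U
    · obtain ⟨O, hOV, hOU, hzO, hm⟩ := hf.mem z (hV z.2) hz
      refine ⟨O ⊓ W, inf_le_right, ⟨hzO, z.2⟩, ?_⟩
      refine hg.dvd_of_mem_map _ (inf_le_left.trans hOU) ?_
      have := Ideal.mem_map_of_mem (res (inf_le_left : O ⊓ W ≤ O)) hm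
      rw [res_res, Ideal.map_map] at this
      convert! this using 2
      ext a
      simp
    · obtain ⟨O, hOV, hzO, hu⟩ := hg.unit z (hV' z.2) hz
      refine ⟨O ⊓ W, inf_le_right, ⟨hzO, z.2⟩, IsUnit.dvd ?_⟩
      simpa using hu.map (res (inf_le_left : O ⊓ W ≤ O))
  choose O hO hzO hd using key
  refine dvd_of_cover O hO (fun z hz => ⟨⟨z, hz⟩, hzO ⟨z, hz⟩⟩) (fun W' h => ?_) fun i => ?_
  · rw [res_res]; exact hreg _ _
  · simpa using hd i

/-- Pullback of an equation. -/
theorem comap (hf : GenBy U I V f) (h : Y ⟶ X) {U' : Y.Opens} (hU' : U' = h ⁻¹ᵁ U)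
    {W : Y.Opens} (hW : W ≤ h ⁻¹ᵁ V) :
    GenBy U' (I.map (pb h (U := U) hU'.le)) W (pb h hW f) where
  dvd O hOW hOU a ha := by
    rw [← Ideal.mem_span_singleton]
    have hcomap : I.map (pb h (U := U) hU'.le) ≤
        (Ideal.span {res hOW (pb h hW f)}).comap (res hOU) := by
      refine Ideal.map_le_iff_le_comap.2 fun b hb => ?_
      rw [Ideal.mem_comap, Ideal.mem_comap, Ideal.mem_span_singleton, res_pb, res_pb]
      have hO : O ≤ h ⁻¹ᵁ (V ⊓ U) := le_inf (hOW.trans hW) (hOU.trans hU'.le)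
      have := map_dvd (pb h hO) (hf.dvd (V ⊓ U) inf_le_left inf_le_right b hb)
      simpa [pb_res] using this
    exact hcomap ha
  mem z hz hzU := by
    obtain ⟨O, hOV, hOU, hzO, hm⟩ := hf.mem (h z) (hW hz) (hU'.le hzU)
    have hle : h ⁻¹ᵁ O ⊓ W ≤ U' := (inf_le_left.trans (h.preimage_mono hOU)).trans hU'.ge
    refine ⟨h ⁻¹ᵁ O ⊓ W, inf_le_right, hle, ⟨hzO, hz⟩, ?_⟩
    have := Ideal.mem_map_of_mem (pb h (inf_le_left : h ⁻¹ᵁ O ⊓ W ≤ h ⁻¹ᵁ O)) hm
    rw [pb_res, Ideal.map_map] at this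
    rw [res_pb, Ideal.map_map]
    convert! this using 2
    ext a
    simp [pb_res]
  unit z hz hzU := by
    obtain ⟨O, hOV, hzO, hu⟩ := hf.unit (h z) (hW hz) fun hh => hzU (hU'.ge hh)
    refine ⟨h ⁻¹ᵁ O ⊓ W, inf_le_right, ⟨hzO, hz⟩, ?_⟩
    simpa [pb_res, res_pb] using hu.map (pb h (inf_le_left : h ⁻¹ᵁ O ⊓ W ≤ h ⁻¹ᵁ O))

end GenBy

namespace EffDiv

/-- `D` is the divisor of the ideal `I` of the open `U` (and is empty outside `U`). -/
def IsGenBy (D : EffDiv X) (U : X.Opens) (I : Ideal Γ(X, U)) : Prop :=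
  ∀ x, GenBy U I (D.V x) (D.f x)

/-- Divisors of an ideal and of its image are related by pullback. -/
theorem IsGenBy.isPullback {D : EffDiv X} {E : EffDiv Y} {U : X.Opens} {I : Ideal Γ(X, U)}
    (hD : D.IsGenBy U I) (h : Y ⟶ X) {U' : Y.Opens} (hU' : U' = h ⁻¹ᵁ U)
    (hE : E.IsGenBy U' (I.map (pb h (U := U) hU'.le))) : IsPullback h D E := by
  intro y W hWE hWD
  have hp := (hD (h y)).comap h hU' hWD
  have hd : E.eqn y hWE ∣ pb h hWD (D.f (h y)) := by
    have := hp.dvd_of_regular (hE y) (E.regular y) (W := W) le_rfl hWE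
    simpa [eqn] using this
  obtain ⟨c, hc⟩ := hd
  have hreg : ∀ (O : Y.Opens) (hO : O ≤ W), res hO (pb h hWD (D.f (h y))) ∈ Γ(Y, O)⁰ := by
    classical
    intro O hO
    rw [hc, map_mul, res_eqn]
    refine mul_mem (E.eqn_mem_nonZeroDivisors y _) (IsUnit.mem_nonZeroDivisors ?_)
    refine IsUnit.map _ ?_
    have key : ∀ z : W, ∃ (O : Y.Opens) (hO : O ≤ W), z.1 ∈ O ∧ IsUnit (res hO c) := by
      intro z
      suffices ∃ (O : Y.Opens) (hO : O ≤ W), z.1 ∈ O ∧
          res hO (pb h hWD (D.f (h y))) ∣ res hO (E.eqn y hWE) by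
        obtain ⟨O, hO, hzO, d, hd⟩ := this
        refine ⟨O, hO, hzO, IsUnit.of_mul_eq_one d ?_⟩
        rw [hc, map_mul] at hd
        refine ((mul_cancel_left_mem_nonZeroDivisors ?_).1 ((mul_one _).trans
          (hd.trans (mul_assoc _ _ _)))).symm
        rw [res_eqn]
        exact E.eqn_mem_nonZeroDivisors y _
      by_cases hz : z.1 ∈ U'
      · obtain ⟨O, hOV, hOU, hzO, hm⟩ := (hE y).mem z (hWE z.2) hz
        refine ⟨O ⊓ W, inf_le_right, ⟨hzO, z.2⟩,
          hp.dvd_of_mem_map _ (inf_le_left.trans hOU) ?_⟩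
        have := Ideal.mem_map_of_mem (res (inf_le_left : O ⊓ W ≤ O)) hm
        rw [res_res, Ideal.map_map] at this
        rw [res_eqn]
        convert! this using 2
        ext a
        simp
      · obtain ⟨O, hOV, hzO, hu⟩ := hp.unit z z.2 hz
        exact ⟨O, hOV, hzO, hu.dvd⟩
    choose O hO hzO hu using key
    refine isUnit_of_dvd_one (dvd_of_cover O hO (fun z hz => ⟨⟨z, hz⟩, hzO ⟨z, hz⟩⟩)
      (fun W' hW' => ?_) fun i => ?_)
    · refine mem_nonZeroDivisors_iff_right.2 fun b hb => ?_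
      refine eq_of_cover (fun i => O i ⊓ W') (fun i => inf_le_right)
        (fun z hz => ⟨⟨z, hW' hz⟩, hzO ⟨z, hW' hz⟩, hz⟩) fun i => ?_
      have h1 := congrArg (res (inf_le_right : O i ⊓ W' ≤ W')) hb
      rw [map_mul, map_zero, res_res] at h1
      have hu' := (hu i).map (res (inf_le_left : O i ⊓ W' ≤ O i))
      rw [res_res] at hu'
      rw [map_zero]
      exact hu'.mul_left_eq_zero.1 h1
    · exact (hu i).dvd
  have hd' : pb h hWD (D.f (h y)) ∣ E.eqn y hWE := by
    have h1 : GenBy U' (I.map (pb h (U := U) hU'.le)) (E.V y) (E.f y) := hE y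
    have := h1.dvd_of_regular hp hreg (W := W) hWE le_rfl
    simpa [eqn] using this
  obtain ⟨d, hd⟩ := hd'
  have : c * d = 1 := by
    refine (mul_cancel_left_mem_nonZeroDivisors (E.eqn_mem_nonZeroDivisors y hWE)).1 ?_
    rw [← mul_assoc, ← hc, ← hd, mul_one]
  exact ⟨⟨d, c, by rw [mul_comm, this], this⟩, hd.symm⟩

end EffDiv

end Fermat.Agent.Jacobian
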