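import Mathlib.RingTheory.TensorProduct.Free
import Mathlib.RingTheory.Nakayama
import Mathlib.RingTheory.LocalRing.ResidueField.Ideal
import Mathlib.LinearAlgebra.Charpoly.Basic
import Mathlib.Algebra.Module.Projective
import Mathlib.RingTheory.Localization.Away.Basic
import Mathlib.LinearAlgebra.FreeModule.Basic

/-!
# Divisor ideals on an affine relative curve

`A` is a `k[x]`-algebra, free as a `k[x]`-module, `R` a `k`-algebra and `A_R = R ⊗[k] A` with its
left `R`-algebra structure. An ideal `I` of `A_R` with `A_R ⧸ I` finite projective over `R` is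
locally generated by a regular element, provided this holds in all fibres.
-/

set_option autoImplicit false

universe u

noncomputable section

open scoped TensorProduct
open Polynomial

namespace Fermat.Agent.Jacobian

/-- `f ∈ J` generates `J` after inverting `s`, and is regular there. -/
structure IsLocGen {S : Type u} [CommRing S] (J : Ideal S) (s f : S) : Prop where
  mem : f ∈ J
  dvd : ∀ a ∈ J, f ∣ s * a
  regular : ∀ b, f * b = 0 → ∃ n : ℕ, s ^ n * b = 0

/-- In every fibre `K ⊗ A`, ideals containing a regular element are locally principal. -/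
def FibresLocallyPrincipal (k A : Type u) [Field k] [CommRing A] [Algebra k A] : Prop :=
  ∀ (K : Type u) [Field K] [Algebra k K] (J : Ideal (K ⊗[k] A)),
    (∃ g ∈ J, g ∈ nonZeroDivisors (K ⊗[k] A)) →
    ∀ P : Ideal (K ⊗[k] A), P.IsPrime → ∃ s ∉ P, ∃ f ∈ J, ∀ a ∈ J, f ∣ s * a

namespace IsLocGen

variable {S : Type u} [CommRing S] {J : Ideal S} {s f : S}

theorem map_away (h : IsLocGen J s f) :
    J.map (algebraMap S (Localization.Away s)) =
        Ideal.span {algebraMap S (Localization.Away s) f} ∧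
      algebraMap S (Localization.Away s) f ∈ nonZeroDivisors (Localization.Away s) := by
  have hu : IsUnit (algebraMap S (Localization.Away s) s) :=
    IsLocalization.Away.algebraMap_isUnit s
  constructor
  · refine le_antisymm (Ideal.map_le_iff_le_comap.2 fun a ha => ?_)
      ((Ideal.span_singleton_le_iff_mem _).2 (Ideal.mem_map_of_mem _ h.mem))
    obtain ⟨c, hc⟩ := h.dvd a ha
    rw [Ideal.mem_comap, Ideal.mem_span_singleton]
    have : algebraMap S (Localization.Away s) f ∣
        algebraMap S (Localization.Away s) s * algebraMap S (Localization.Away s) a :=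
      ⟨algebraMap S _ c, by rw [← map_mul, ← map_mul, hc]⟩
    exact hu.dvd_mul_left.1 this
  · refine mem_nonZeroDivisors_iff_right.2 fun z hz => ?_
    obtain ⟨⟨b, ⟨_, n, rfl⟩⟩, hb⟩ := IsLocalization.surj (Submonoid.powers s) z
    simp only at hb
    have h0 : algebraMap S (Localization.Away s) (f * b) = 0 := by
      rw [map_mul, ← hb, ← mul_assoc, mul_comm _ z, hz, zero_mul]
    obtain ⟨⟨_, m, rfl⟩, hm⟩ := (IsLocalization.map_eq_zero_iff (Submonoid.powers s) _ _).1 h0
    obtain ⟨l, hl⟩ := h.regular (s ^ m * b) (by rw [← hm]; ring)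
    have hb0 : algebraMap S (Localization.Away s) b = 0 :=
      (IsLocalization.map_eq_zero_iff (Submonoid.powers s) _ _).2
        ⟨⟨_, l + m, rfl⟩, by simp only [pow_add]; rw [mul_assoc]; exact hl⟩
    rw [hb0] at hb
    have hu' : IsUnit (algebraMap S (Localization.Away s) (s ^ n)) := by
      rw [map_pow]; exact hu.pow n
    exact hu'.mul_left_eq_zero.1 hb

end IsLocGen

section Monic

variable {k A R : Type u} [Field k] [CommRing A] [Algebra k A] [Algebra k[X] A]
  [IsScalarTower k k[X] A] [CommRing R] [Algebra k R]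

/-- The coordinate `x` of `A_R`. -/
def xR (k A R : Type u) [Field k] [CommRing A] [Algebra k A] [Algebra k[X] A]
    [IsScalarTower k k[X] A] [CommRing R] [Algebra k R] : R ⊗[k] A :=
  1 ⊗ₜ algebraMap k[X] A X

/-- The coordinates of an element of `A_R` in `R[x]`, from a `k[x]`-basis of `A`. -/
def polyCoord {ι : Type*} (e : Module.Basis ι k[X] A) : R ⊗[k] A →ₗ[R] (ι →₀ R[X]) :=
  TensorProduct.AlgebraTensorModule.lift
    (LinearMap.toSpanSingleton R (A →ₗ[k] (ι →₀ R[X]))
      ((Finsupp.mapRange.linearMap (Polynomial.mapAlgHom (Algebra.ofId k R)).toLinearMap).comp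
        (e.repr.toLinearMap.restrictScalars k)))

theorem polyCoord_tmul {ι : Type*} (e : Module.Basis ι k[X] A) (r : R) (a : A) :
    polyCoord e (r ⊗ₜ[k] a) = r • (e.repr a).mapRange (Polynomial.map (algebraMap k R))
      (by simp) := by
  ext i
  simp [polyCoord]

/-- The inverse of `polyCoord`. -/
def polySum {ι : Type*} (e : Module.Basis ι k[X] A) : (ι →₀ R[X]) →ₗ[R] R ⊗[k] A :=
  Finsupp.lsum R fun i =>
    (LinearMap.mulRight R (1 ⊗ₜ[k] e i)).comp (Polynomial.aeval (xR k A R)).toLinearMap

theorem aeval_map_xR (q : k[X]) :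
    Polynomial.aeval (xR k A R) (q.map (algebraMap k R)) = 1 ⊗ₜ algebraMap k[X] A q := by
  rw [Polynomial.aeval_map_algebraMap]
  have h : Polynomial.aeval (R := k) (xR k A R) =
      (Algebra.TensorProduct.includeRight).comp (IsScalarTower.toAlgHom k k[X] A) :=
    Polynomial.algHom_ext (by simp [xR])
  rw [h]
  rfl

theorem polySum_polyCoord {ι : Type*} (e : Module.Basis ι k[X] A) (z : R ⊗[k] A) :
    polySum e (polyCoord e z) = z := by
  induction z using TensorProduct.induction_on with
  | zero => simp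
  | add a b ha hb => simp [map_add, ha, hb]
  | tmul r a =>
    rw [polyCoord_tmul, map_smul]
    have : polySum e ((e.repr a).mapRange (Polynomial.map (algebraMap k R)) (by simp)) =
        (1 : R) ⊗ₜ[k] a := by
      rw [polySum, Finsupp.lsum_apply, Finsupp.sum_mapRange_index (by simp)]
      simp only [LinearMap.comp_apply, AlgHom.toLinearMap_apply, LinearMap.mulRight_apply,
        aeval_map_xR, Algebra.TensorProduct.tmul_mul_tmul, mul_one]
      conv_rhs => rw [← e.linearCombination_repr a]
      rw [Finsupp.linearCombination_apply, Finsupp.sum, Finsupp.sum, TensorProduct.tmul_sum]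
      exact Finset.sum_congr rfl fun i _ => by rw [Algebra.smul_def]
    rw [this, TensorProduct.smul_tmul', smul_eq_mul, mul_one]

theorem polyCoord_aeval_mul {ι : Type*} (e : Module.Basis ι k[X] A) (p : R[X]) (z : R ⊗[k] A) :
    polyCoord e (Polynomial.aeval (xR k A R) p * z) = p • polyCoord e z := by
  induction p using Polynomial.induction_on generalizing z with
  | C c =>
    rw [Polynomial.aeval_C, ← Algebra.smul_def, map_smul]
    ext i
    simp [Polynomial.smul_eq_C_mul]
  | add a b ha hb => rw [map_add, add_mul, map_add, ha, hb, add_smul]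
  | monomial n c ih =>
    have hx : ∀ z : R ⊗[k] A, polyCoord e (xR k A R * z) = (X : R[X]) • polyCoord e z := by
      intro z
      induction z using TensorProduct.induction_on with
      | zero => simp
      | add a b ha hb => rw [mul_add, map_add, map_add, ha, hb, smul_add]
      | tmul r a =>
        rw [xR, Algebra.TensorProduct.tmul_mul_tmul, one_mul, polyCoord_tmul, polyCoord_tmul,
          ← Algebra.smul_def, map_smul, smul_comm]
        ext i
        simp [Polynomial.smul_eq_C_mul]
    rw [pow_succ, ← mul_assoc, map_mul (Polynomial.aeval (xR k A R)), Polynomial.aeval_X, mul_assoc,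
      ih, hx, smul_smul]

/-- A monic polynomial in `x` is a regular element of `A_R`. -/
theorem aeval_xR_mem_nonZeroDivisors [Module.Free k[X] A] {p : R[X]} (hp : p.Monic) :
    Polynomial.aeval (xR k A R) p ∈ nonZeroDivisors (R ⊗[k] A) := by
  refine mem_nonZeroDivisors_iff_right.2 fun z hz => ?_
  let e := Module.Free.chooseBasis k[X] A
  have h := polyCoord_aeval_mul e p z
  rw [mul_comm, hz, map_zero] at h
  rw [← polySum_polyCoord e z]
  have : polyCoord e z = 0 := by
    ext1 i
    exact hp.mul_right_eq_zero_iff.1 (congrArg (fun t : _ →₀ R[X] => t i) h.symm)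
  rw [this, map_zero]

end Monic

section Fibre

variable {k A R : Type u} [Field k] [CommRing A] [Algebra k A] [CommRing R] [Algebra k R]

/-- The map from `A_R` to the fibre at `p`. -/
def toFibre (p : Ideal R) [p.IsPrime] : R ⊗[k] A →ₐ[k] p.ResidueField ⊗[k] A :=
  Algebra.TensorProduct.map (IsScalarTower.toAlgHom k R p.ResidueField) (AlgHom.id k A)

variable (p : Ideal R) [p.IsPrime]

theorem toFibre_smul (r : R) (z : R ⊗[k] A) :
    toFibre p (r • z) = algebraMap R p.ResidueField r • toFibre p z := by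
  rw [Algebra.smul_def, map_mul, Algebra.smul_def]
  rfl

theorem exists_smul_eq_toFibre (y : p.ResidueField ⊗[k] A) :
    ∃ (z : R ⊗[k] A) (c : R), c ∉ p ∧ algebraMap R p.ResidueField c • y = toFibre p z := by
  induction y using TensorProduct.induction_on with
  | zero => exact ⟨0, 1, p.ne_top_iff_one.1 (Ideal.IsPrime.ne_top ‹_›), by simp⟩
  | add a b ha hb =>
    obtain ⟨za, ca, hca, ea⟩ := ha
    obtain ⟨zb, cb, hcb, eb⟩ := hb
    refine ⟨cb • za + ca • zb, ca * cb, fun h => (Ideal.IsPrime.mem_or_mem ‹_› h).elim hca hcb, ?_⟩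
    rw [map_add, toFibre_smul, toFibre_smul, ← ea, ← eb, smul_smul, smul_smul, ← map_mul,
      ← map_mul, mul_comm cb ca, smul_add]
  | tmul t a =>
    obtain ⟨n, d, hd, ht⟩ := IsFractionRing.div_surjective (A := R ⧸ p) t
    obtain ⟨n, rfl⟩ := Ideal.Quotient.mk_surjective n
    obtain ⟨d, rfl⟩ := Ideal.Quotient.mk_surjective d
    have hd' : d ∉ p := fun h => nonZeroDivisors.ne_zero hd (Ideal.Quotient.eq_zero_iff_mem.2 h)
    refine ⟨n ⊗ₜ a, d, hd', ?_⟩
    have hne : algebraMap R p.ResidueField d ≠ 0 := fun h =>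
      hd' (Ideal.algebraMap_residueField_eq_zero.1 h)
    show algebraMap R p.ResidueField d • t ⊗ₜ[k] a = algebraMap R p.ResidueField n ⊗ₜ[k] a
    rw [TensorProduct.smul_tmul', ← ht, smul_eq_mul, Ideal.algebraMap_quotient_residueField_mk,
      Ideal.algebraMap_quotient_residueField_mk, mul_div_cancel₀ _ hne]

theorem mem_map_of_toFibre_eq_zero {z : R ⊗[k] A} (h : toFibre p z = 0) :
    z ∈ p • (⊤ : Submodule R (R ⊗[k] A)) := by
  let β := Module.Free.chooseBasis k A
  let bR := Algebra.TensorProduct.basis R β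
  let bK := Algebra.TensorProduct.basis p.ResidueField β
  have hz := bR.linearCombination_repr z
  rw [Finsupp.linearCombination_apply, Finsupp.sum] at hz
  have hcoef : ∀ i ∈ (bR.repr z).support, algebraMap R p.ResidueField (bR.repr z i) = 0 := by
    have h' : ∑ i ∈ (bR.repr z).support, algebraMap R p.ResidueField (bR.repr z i) • bK i = 0 := by
      rw [← h]
      conv_rhs => rw [← hz]
      rw [map_sum]
      refine Finset.sum_congr rfl fun i _ => ?_
      rw [toFibre_smul]
      simp [bK, bR, toFibre]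
    exact fun i hi => linearIndependent_iff'.1 bK.linearIndependent _ _ h' i hi
  rw [← hz]
  exact Submodule.sum_mem _ fun i hi => Submodule.smul_mem_smul
    (Ideal.algebraMap_residueField_eq_zero.1 (hcoef i hi)) Submodule.mem_top

theorem exists_smul_eq_toFibre_of_mem (I : Ideal (R ⊗[k] A)) {y : p.ResidueField ⊗[k] A}
    (hy : y ∈ I.map (toFibre p)) :
    ∃ (q : R ⊗[k] A) (c : R), q ∈ I ∧ c ∉ p ∧
      algebraMap R p.ResidueField c • y = toFibre p q := by
  induction hy using Submodule.span_induction with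
  | mem y hy =>
    obtain ⟨q, hq, rfl⟩ := hy
    exact ⟨q, 1, hq, p.ne_top_iff_one.1 (Ideal.IsPrime.ne_top ‹_›), by simp⟩
  | zero => exact ⟨0, 1, I.zero_mem, p.ne_top_iff_one.1 (Ideal.IsPrime.ne_top ‹_›), by simp⟩
  | add a b _ _ ha hb =>
    obtain ⟨qa, ca, hqa, hca, ea⟩ := ha
    obtain ⟨qb, cb, hqb, hcb, eb⟩ := hb
    refine ⟨cb • qa + ca • qb, ca * cb, ?_,
      fun h => (Ideal.IsPrime.mem_or_mem ‹_› h).elim hca hcb, ?_⟩
    · rw [Algebra.smul_def, Algebra.smul_def]
      exact add_mem (I.mul_mem_left _ hqa) (I.mul_mem_left _ hqb)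
    · rw [map_add, toFibre_smul, toFibre_smul, ← ea, ← eb, smul_smul, smul_smul, ← map_mul,
        ← map_mul, mul_comm cb ca, smul_add]
  | smul t y _ hy =>
    obtain ⟨q, c, hq, hc, e⟩ := hy
    obtain ⟨t', d, hd, et⟩ := exists_smul_eq_toFibre p t
    refine ⟨t' * q, d * c, I.mul_mem_left _ hq,
      fun h => (Ideal.IsPrime.mem_or_mem ‹_› h).elim hd hc, ?_⟩
    rw [map_mul (toFibre p), ← et, ← e, smul_mul_smul_comm, ← map_mul, smul_eq_mul]

end Fibre

section Divisor

variable {k A R : Type u} [Field k] [CommRing A] [Algebra k A] [Algebra k[X] A]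
  [IsScalarTower k k[X] A] [Module.Free k[X] A] [Module.Finite k[X] A] [CommRing R] [Algebra k R]
variable (I : Ideal (R ⊗[k] A))

omit [Module.Free k[X] A] [Module.Finite k[X] A] in
/-- A divisor ideal contains a monic polynomial in `x`. -/
theorem exists_monic_aeval_mem [Module.Finite R ((R ⊗[k] A) ⧸ I)] :
    ∃ p : R[X], p.Monic ∧ Polynomial.aeval (xR k A R) p ∈ I := by
  obtain ⟨p, hp, h⟩ := LinearMap.exists_monic_and_aeval_eq_zero R
    (LinearMap.mulLeft R (Ideal.Quotient.mk I (xR k A R)))
  refine ⟨p, hp, Ideal.Quotient.eq_zero_iff_mem.1 ?_⟩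
  have h2 : ∀ q : R[X], Polynomial.aeval (LinearMap.mulLeft R (Ideal.Quotient.mk I (xR k A R))) q =
      LinearMap.mulLeft R (Ideal.Quotient.mk I (Polynomial.aeval (xR k A R) q)) := by
    intro q
    rw [show LinearMap.mulLeft R (Ideal.Quotient.mk I (xR k A R)) =
        (Algebra.lmul R ((R ⊗[k] A) ⧸ I)) (Ideal.Quotient.mkₐ R I (xR k A R)) from rfl,
      Polynomial.aeval_algHom_apply, Polynomial.aeval_algHom_apply]
    rfl
  have h3 := congrArg (fun φ : Module.End R ((R ⊗[k] A) ⧸ I) => φ 1) ((h2 p).symm.trans h)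
  simpa using h3

omit [Algebra k[X] A] [IsScalarTower k k[X] A] [Module.Free k[X] A] [Module.Finite k[X] A] in
/-- An `R`-linear retraction of `A_R` onto a divisor ideal. -/
theorem exists_retraction [Module.Projective R ((R ⊗[k] A) ⧸ I)] :
    ∃ π : R ⊗[k] A →ₗ[R] R ⊗[k] A, (∀ z, π z ∈ I) ∧ ∀ z ∈ I, π z = z := by
  obtain ⟨σ, hσ⟩ := Module.projective_lifting_property
    (Ideal.Quotient.mkₐ R I).toLinearMap LinearMap.id Ideal.Quotient.mk_surjective
  refine ⟨LinearMap.id - σ.comp (Ideal.Quotient.mkₐ R I).toLinearMap, fun z => ?_, fun z hz => ?_⟩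
  · refine Ideal.Quotient.eq_zero_iff_mem.1 ?_
    have := LinearMap.congr_fun hσ (Ideal.Quotient.mk I z)
    simp only [LinearMap.comp_apply, AlgHom.toLinearMap_apply, Ideal.Quotient.mkₐ_eq_mk,
      LinearMap.id_apply] at this
    simp [this]
  · simp [Ideal.Quotient.eq_zero_iff_mem.2 hz]

theorem fg_of_projective [Module.Finite R ((R ⊗[k] A) ⧸ I)]
    [Module.Projective R ((R ⊗[k] A) ⧸ I)] : I.FG := by
  classical
  obtain ⟨p, hp, hpI⟩ := exists_monic_aeval_mem I
  obtain ⟨π, hπ, hπI⟩ := exists_retraction I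
  let e := Module.Free.chooseBasis k[X] A
  let w : (Module.Free.ChooseBasisIndex k[X] A) × Fin p.natDegree → R ⊗[k] A := fun im =>
    xR k A R ^ (im.2 : ℕ) * (1 ⊗ₜ[k] e im.1)
  refine ⟨insert (Polynomial.aeval (xR k A R) p) (Finset.univ.image fun im => π (w im)), ?_⟩
  refine le_antisymm (Ideal.span_le.2 ?_) fun a ha => ?_
  · simp only [Finset.coe_insert, Set.insert_subset_iff, Finset.coe_image]
    exact ⟨hpI, by rintro _ ⟨im, -, rfl⟩; exact hπ _⟩
  set c := polyCoord e a
  set y := polySum e (c.mapRange (fun q => q /ₘ p) (Polynomial.zero_divByMonic p))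
  set r := polySum e (c.mapRange (fun q => q %ₘ p) (Polynomial.zero_modByMonic p))
  have hsplit : a = Polynomial.aeval (xR k A R) p * y + r := by
    conv_lhs => rw [← polySum_polyCoord e a]
    simp only [y, r, c, polySum, Finsupp.lsum_apply]
    rw [Finsupp.sum_mapRange_index (by simp), Finsupp.sum_mapRange_index (by simp), Finsupp.mul_sum,
      ← Finsupp.sum_add]
    refine Finsupp.sum_congr fun i _ => ?_
    simp only [LinearMap.comp_apply, AlgHom.toLinearMap_apply, LinearMap.mulRight_apply]
    rw [← mul_assoc, ← map_mul, ← add_mul, ← map_add, add_comm,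
      Polynomial.modByMonic_add_div]
  have hr : π r ∈ Ideal.span
      ((insert (Polynomial.aeval (xR k A R) p) (Finset.univ.image fun im => π (w im)) :
        Finset _) : Set (R ⊗[k] A)) := by
    have hrw : r ∈ Submodule.span R (Set.range w) := by
      simp only [r, polySum, Finsupp.lsum_apply]
      rw [Finsupp.sum_mapRange_index (by simp)]
      refine Submodule.sum_mem _ fun i _ => ?_
      simp only [LinearMap.comp_apply, AlgHom.toLinearMap_apply, LinearMap.mulRight_apply]
      rcases eq_or_ne p 1 with h1 | h1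
      · simp [h1]
      rw [Polynomial.aeval_eq_sum_range' (Polynomial.natDegree_modByMonic_lt _ hp h1),
        Finset.sum_mul]
      refine Submodule.sum_mem _ fun m hm => ?_
      rw [smul_mul_assoc]
      exact Submodule.smul_mem _ _ (Submodule.subset_span ⟨(i, ⟨m, Finset.mem_range.1 hm⟩), rfl⟩)
    have := Submodule.mem_map_of_mem (f := π) hrw
    rw [Submodule.map_span] at this
    refine Submodule.span_le_restrictScalars R (R ⊗[k] A) _ (Submodule.span_mono ?_ this)
    rintro _ ⟨_, ⟨im, rfl⟩, rfl⟩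
    simp
  have : a = Polynomial.aeval (xR k A R) p * y + π r := by
    conv_lhs => rw [← hπI a ha, hsplit, map_add, hπI _ (I.mul_mem_right _ hpI)]
  rw [this]
  exact add_mem (Ideal.mul_mem_right _ _ (Ideal.subset_span (by simp))) hr

/-- A divisor ideal is locally generated by a regular element. -/
theorem exists_isLocGen [Module.Finite R ((R ⊗[k] A) ⧸ I)]
    [Module.Projective R ((R ⊗[k] A) ⧸ I)] (H : FibresLocallyPrincipal k A)
    (P : Ideal (R ⊗[k] A)) [P.IsPrime] : ∃ s ∉ P, ∃ f, IsLocGen I s f := by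
  classical
  set p : Ideal R := P.comap (algebraMap R (R ⊗[k] A)) with hp
  have hsmul : ∀ {c : R} {z : R ⊗[k] A}, c ∈ p → c • z ∈ P := fun {c z} hc => by
    rw [Algebra.smul_def]; exact P.mul_mem_right _ hc
  have hker : ∀ {z : R ⊗[k] A}, toFibre p z = 0 → z ∈ P := fun {z} hz => by
    have := mem_map_of_toFibre_eq_zero p hz
    refine Submodule.smul_induction_on this (fun c hc m _ => hsmul hc) fun a b ha hb => add_mem ha hb
  set P' : Ideal (p.ResidueField ⊗[k] A) := P.map (toFibre p) with hP'
  have hne : ∀ {c : R}, c ∉ p → algebraMap R (R ⊗[k] A) c ∉ P := fun {c} hc h => hc h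
  have hcomap : ∀ {z : R ⊗[k] A}, toFibre p z ∈ P' → z ∈ P := by
    intro z hz
    have := exists_smul_eq_toFibre_of_mem p P hz
    obtain ⟨q, c, hq, hc, e⟩ := this
    rw [← toFibre_smul] at e
    have h1 : c • z - q ∈ P := hker (by rw [map_sub, e, sub_self])
    have h2 : c • z ∈ P := by simpa using add_mem h1 hq
    rw [Algebra.smul_def] at h2
    exact (Ideal.IsPrime.mem_or_mem inferInstance h2).resolve_left (hne hc)
  have hP'p : P'.IsPrime := by
    refine ⟨fun h => ?_, fun {y z} hyz => ?_⟩
    · exact Ideal.IsPrime.ne_top ‹P.IsPrime› ((P.eq_top_iff_one).2 (hcomap (by rw [h]; trivial)))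
    · obtain ⟨y', c, hc, ey⟩ := exists_smul_eq_toFibre p y
      obtain ⟨z', d, hd, ez⟩ := exists_smul_eq_toFibre p z
      have hu : ∀ {c : R}, c ∉ p → ∀ y : p.ResidueField ⊗[k] A,
          algebraMap R p.ResidueField c • y ∈ P' → y ∈ P' := by
        intro c hc y hy
        rw [Algebra.smul_def] at hy
        refine (Ideal.unit_mul_mem_iff_mem _ ?_).1 hy
        exact IsUnit.map _ (Ne.isUnit fun h => hc (Ideal.algebraMap_residueField_eq_zero.1 h))
      have : toFibre p (y' * z') ∈ P' := by
        rw [map_mul, ← ey, ← ez, smul_mul_smul_comm, Algebra.smul_def]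
        exact P'.mul_mem_left _ hyz
      rcases Ideal.IsPrime.mem_or_mem ‹P.IsPrime› (hcomap this) with h | h
      · exact Or.inl (hu hc y (ey ▸ Ideal.mem_map_of_mem _ h))
      · exact Or.inr (hu hd z (ez ▸ Ideal.mem_map_of_mem _ h))
  obtain ⟨χ, hχ, hχI⟩ := exists_monic_aeval_mem I
  set g := Polynomial.aeval (xR k A R) χ with hg
  have hgK : toFibre p g = Polynomial.aeval (xR k A p.ResidueField)
      (χ.map (algebraMap R p.ResidueField)) := by
    rw [hg, Polynomial.aeval_def, Polynomial.aeval_def, Polynomial.eval₂_map]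
    refine (Polynomial.hom_eval₂ χ _ (toFibre p).toRingHom _).trans ?_
    congr 1
    simp [xR, toFibre]
  set J : Ideal (p.ResidueField ⊗[k] A) := I.map (toFibre p) with hJ
  obtain ⟨s', hs', f', hf', hdvd⟩ := H p.ResidueField J ⟨toFibre p g, Ideal.mem_map_of_mem _ hχI,
    hgK ▸ aeval_xR_mem_nonZeroDivisors (hχ.map _)⟩ P' hP'p
  obtain ⟨π, hπ, hπI⟩ := exists_retraction I
  obtain ⟨fI, cf, hfI, hcf, ef⟩ := exists_smul_eq_toFibre_of_mem p I hf'
  obtain ⟨sR, cs, hcs, es⟩ := exists_smul_eq_toFibre p s'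
  have hsR : sR ∉ P := by
    intro h
    refine hs' ?_
    have : algebraMap R p.ResidueField cs • s' ∈ P' := es ▸ Ideal.mem_map_of_mem _ h
    rw [Algebra.smul_def] at this
    refine (Ideal.unit_mul_mem_iff_mem _ ?_).1 this
    exact IsUnit.map _ (Ne.isUnit fun h => hcs (Ideal.algebraMap_residueField_eq_zero.1 h))
  -- congruence modulo `p • I`
  have key : ∀ a ∈ I, ∃ t ∉ P, t * a ∈ Ideal.span {fI} ⊔ P * I := by
    intro a ha
    obtain ⟨w, hw⟩ := hdvd _ (Ideal.mem_map_of_mem _ ha)
    obtain ⟨w', cw, hcw, ew⟩ := exists_smul_eq_toFibre p w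
    refine ⟨algebraMap R _ (cw * cf) * sR, fun h =>
      (Ideal.IsPrime.mem_or_mem inferInstance h).elim
        (hne fun h => (Ideal.IsPrime.mem_or_mem inferInstance h).elim hcw hcf) hsR, ?_⟩
    set d := algebraMap R _ (cw * cf) * sR * a - algebraMap R _ cs * (fI * w') with hd
    have hd0 : toFibre p d = 0 := by
      have hcomm : ∀ c : R, toFibre p (algebraMap R _ c) =
          algebraMap p.ResidueField (p.ResidueField ⊗[k] A) (algebraMap R p.ResidueField c) :=
        fun c => rfl
      simp only [hd, map_sub, map_mul, hcomm, ← es, ← ef, ← ew, Algebra.smul_def, sub_eq_zero]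
      linear_combination (algebraMap p.ResidueField (p.ResidueField ⊗[k] A)
        (algebraMap R p.ResidueField cw) * algebraMap p.ResidueField (p.ResidueField ⊗[k] A)
        (algebraMap R p.ResidueField cf) * algebraMap p.ResidueField (p.ResidueField ⊗[k] A)
        (algebraMap R p.ResidueField cs)) * hw
    have hdI : d ∈ I := I.sub_mem (I.mul_mem_left _ ha) (I.mul_mem_left _ (I.mul_mem_right _ hfI))
    have hd' : d ∈ P * I := by
      rw [← hπI d hdI]
      refine Submodule.smul_induction_on (mem_map_of_toFibre_eq_zero p hd0)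
        (fun c hc m _ => ?_) fun a b ha hb => by rw [map_add]; exact add_mem ha hb
      rw [map_smul, Algebra.smul_def]
      exact Ideal.mul_mem_mul hc (hπ m)
    have : algebraMap R _ (cw * cf) * sR * a = (algebraMap R _ cs * w') * fI + d := by
      rw [hd]; ring
    rw [this]
    exact add_mem (Ideal.mem_sup_left (Ideal.mul_mem_left _ _ (Ideal.mem_span_singleton_self fI)))
      (Ideal.mem_sup_right hd')
  let L := Localization.AtPrime P
  let φ := algebraMap (R ⊗[k] A) L
  have hIL : I.map φ ≤ Ideal.span {φ fI} := by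
    refine Submodule.le_of_le_smul_of_le_jacobson_bot (I := IsLocalRing.maximalIdeal L)
      ((fg_of_projective I).map φ) (IsLocalRing.jacobson_eq_maximalIdeal ⊥ bot_ne_top).ge ?_
    rw [Ideal.smul_eq_mul]
    refine Ideal.map_le_iff_le_comap.2 fun a ha => ?_
    obtain ⟨t, ht, hta⟩ := key a ha
    have h := Ideal.mem_map_of_mem φ hta
    rw [Ideal.map_sup, Ideal.map_span, Set.image_singleton, Ideal.map_mul, map_mul] at h
    rw [Ideal.mem_comap]
    refine (Ideal.unit_mul_mem_iff_mem _
      (IsLocalization.map_units L (⟨t, ht⟩ : P.primeCompl))).1 ?_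
    rw [← Localization.AtPrime.map_eq_maximalIdeal]
    exact h
  obtain ⟨G, hG⟩ := fg_of_projective I
  have hgen : ∀ a ∈ G, ∃ t ∉ P, fI ∣ t * a := by
    intro a ha
    have haI : a ∈ I := hG ▸ Ideal.subset_span ha
    obtain ⟨z, hz⟩ := Ideal.mem_span_singleton'.1 (hIL (Ideal.mem_map_of_mem φ haI))
    obtain ⟨⟨z', t⟩, ht⟩ := IsLocalization.surj P.primeCompl z
    have : φ (t * a) = φ (z' * fI) := by
      rw [map_mul, map_mul, ← hz, ← ht]; ring
    obtain ⟨v, hv⟩ := (IsLocalization.eq_iff_exists P.primeCompl L).1 this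
    exact ⟨v * t, P.primeCompl.mul_mem v.2 t.2, v * z', by rw [mul_assoc, hv]; ring⟩
  choose t ht hdvd' using hgen
  set s := ∏ a ∈ G.attach, t a.1 a.2 with hs
  have hsP : s ∉ P := by
    rw [hs]
    exact fun h => by
      obtain ⟨a, -, ha⟩ := (Ideal.IsPrime.prod_mem_iff).1 h
      exact ht _ a.2 ha
  have hall : ∀ a ∈ I, fI ∣ s * a := by
    intro a ha
    rw [← hG] at ha
    induction ha using Submodule.span_induction with
    | mem a ha =>
      refine (hdvd' a ha).trans (mul_dvd_mul_right ?_ a)
      rw [hs]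
      exact Finset.dvd_prod_of_mem (fun a : G => t a.1 a.2) (Finset.mem_attach _ ⟨a, ha⟩)
    | zero => simp
    | add a b _ _ ha hb => rw [mul_add]; exact dvd_add ha hb
    | smul c a _ h => rw [smul_eq_mul, mul_left_comm]; exact h.mul_left c
  refine ⟨s, hsP, fI, hfI, hall, fun b hb => ⟨1, ?_⟩⟩
  obtain ⟨c, hc⟩ := hall g hχI
  rw [pow_one]
  refine (mem_nonZeroDivisors_iff_right.1 (aeval_xR_mem_nonZeroDivisors (k := k) (A := A) hχ)) _ ?_
  rw [← hg]
  linear_combination b * hc + c * hb

end Divisor

end Fermat.Agent.Jacobian
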