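import Fermat.Agent.Jacobian.Divisor.EffDiv
import Fermat.Agent.Jacobian.Divisor.Ideal
import Fermat.Agent.Jacobian.Affine

/-!
# The divisor of a locally principal ideal of an affine open

An ideal of an affine open, locally generated by a regular element and trivial near the
complement, gives an effective divisor `D` with `Γ(U, O(D)⁻¹) = I`.
-/

set_option autoImplicit false

noncomputable section

universe u

open CategoryTheory TopologicalSpace AlgebraicGeometry nonZeroDivisors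

namespace Fermat.Agent.Jacobian

variable {X : Scheme.{u}}

lemma isUnit_res_of_mem_basicOpen {U W : X.Opens} (s : Γ(X, U)) (hU : W ≤ U)
    (h : W ≤ X.basicOpen s) : IsUnit (res hU s) := by
  have := (isUnit_res_basicOpen' s).map (res h)
  rwa [res_res] at this

/-- A local generator is regular on every open contained in the principal open of `s`. -/
theorem IsLocGen.res_mem_nonZeroDivisors {U W : X.Opens} (hU : IsAffineOpen U)
    {I : Ideal Γ(X, U)} {s f : Γ(X, U)} (h : IsLocGen I s f) (hWU : W ≤ U)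
    (hW : W ≤ X.basicOpen s) : res hWU f ∈ Γ(X, W)⁰ := by
  classical
  refine mem_nonZeroDivisors_iff_right.2 fun b hb => ?_
  choose t ht hzt using fun z : W => hU.exists_basicOpen_le (V := W) ⟨z.1, z.2⟩ (hWU z.2)
  refine eq_of_cover (fun z => X.basicOpen (t z)) ht (fun z hz => ⟨⟨z, hz⟩, hzt ⟨z, hz⟩⟩)
    fun z => ?_
  obtain ⟨n, a, ha⟩ := exists_res_eq_pow_mul hU (t z) rfl (X.basicOpen_le _) (res (ht z) b)
  have h1 : res (X.basicOpen_le (t z)) (f * a) = 0 := by
    rw [map_mul, ha]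
    have h2 := congrArg (res (ht z)) hb
    rw [map_mul, map_zero, res_res] at h2
    linear_combination res (X.basicOpen_le (t z)) (t z) ^ n * h2
  obtain ⟨m, hm⟩ := exists_pow_mul_eq_zero hU (t z) (f * a) rfl (X.basicOpen_le _) h1
  obtain ⟨l, hl⟩ := h.regular (t z ^ m * a) (by linear_combination hm)
  have h3 := congrArg (res (X.basicOpen_le (t z))) hl
  rw [map_mul, map_mul, map_zero, map_pow, map_pow, ha, ← mul_assoc, ← mul_assoc] at h3
  have hus : IsUnit (res (X.basicOpen_le (t z)) s) :=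
    isUnit_res_of_mem_basicOpen s _ ((ht z).trans hW)
  have hut : IsUnit (res (X.basicOpen_le (t z)) (t z)) := isUnit_res_basicOpen' _
  rw [map_zero]
  exact (((hus.pow l).mul (hut.pow m)).mul (hut.pow n)).mul_right_eq_zero.1 h3

/-- A local generator is an equation. -/
theorem IsLocGen.genBy {U : X.Opens} {I : Ideal Γ(X, U)} {s f : Γ(X, U)} (h : IsLocGen I s f) :
    GenBy U I (X.basicOpen s) (res (X.basicOpen_le s) f) where
  dvd W hV hU a ha := by
    obtain ⟨c, hc⟩ := h.dvd a ha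
    obtain ⟨w, hw⟩ := isUnit_res_of_mem_basicOpen s hU hV
    refine ⟨(↑w⁻¹ : Γ(X, W)) * res hU c, ?_⟩
    have h1 := congrArg (res hU) hc
    rw [map_mul, map_mul, ← hw] at h1
    rw [res_res, mul_left_comm, ← h1, ← mul_assoc, Units.inv_mul, one_mul]
  mem z hz hzU := ⟨X.basicOpen s, le_rfl, X.basicOpen_le s, hz, by
    rw [res_res]
    exact Ideal.mem_map_of_mem _ h.mem⟩
  unit z hz hzU := absurd (X.basicOpen_le s hz) hzU

/-- The constant equation `1`, where the ideal is trivial. -/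
theorem genBy_one {U : X.Opens} (I : Ideal Γ(X, U)) (U' : X.Opens)
    (away : ∀ z ∈ U, z ∈ U' → ∃ a ∈ I, z ∈ X.basicOpen a) :
    GenBy U I U' (1 : Γ(X, U')) where
  dvd W hV hU a _ := by rw [map_one]; exact one_dvd _
  mem z hz hzU := by
    obtain ⟨a, ha, hza⟩ := away z hzU hz
    refine ⟨U' ⊓ X.basicOpen a, inf_le_left, inf_le_right.trans (X.basicOpen_le a), ⟨hz, hza⟩, ?_⟩
    rw [map_one, ← Ideal.eq_top_iff_one]
    exact Ideal.eq_top_of_isUnit_mem _ (Ideal.mem_map_of_mem _ ha)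
      (isUnit_res_of_mem_basicOpen a _ inf_le_right)
  unit z hz _ := ⟨U', le_rfl, hz, by rw [map_one]; exact isUnit_one⟩

/-- Existence of the divisor of an ideal. -/
theorem exists_isGenBy {U : X.Opens} (hU : IsAffineOpen U) (I : Ideal Γ(X, U))
    (U' : X.Opens) (cover : ∀ z, z ∉ U → z ∈ U')
    (away : ∀ z ∈ U, z ∈ U' → ∃ a ∈ I, z ∈ X.basicOpen a)
    (locGen : ∀ z ∈ U, ∃ s, z ∈ X.basicOpen s ∧ ∃ f, IsLocGen I s f) :
    ∃ D : EffDiv X, D.IsGenBy U I := by
  classical
  have key : ∀ z, ∃ (V : X.Opens) (f : Γ(X, V)), z ∈ V ∧ GenBy U I V f ∧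
      ∀ (W : X.Opens) (h : W ≤ V), res h f ∈ Γ(X, W)⁰ := by
    intro z
    by_cases hz : z ∈ U
    · obtain ⟨s, hs, f, hf⟩ := locGen z hz
      refine ⟨_, _, hs, hf.genBy, fun W h => ?_⟩
      rw [res_res]
      exact hf.res_mem_nonZeroDivisors hU _ h
    · exact ⟨U', 1, cover z hz, genBy_one I U' away,
        fun W h => by rw [map_one]; exact one_mem _⟩
  choose V f hz hgen hreg using key
  exact ⟨⟨V, hz, f, fun x y W hx hy => (hgen x).dvd_of_regular (hgen y) (hreg y) hx hy, hreg⟩,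
    hgen⟩

namespace EffDiv

variable {D E : EffDiv X} {U : X.Opens} {I : Ideal Γ(X, U)}

/-- The class of the divisor of an ideal only depends on the ideal. -/
theorem IsGenBy.cls_eq (hD : D.IsGenBy U I) (hE : E.IsGenBy U I) : E.cls = D.cls := by
  have hI : I.map (pb (𝟙 X) (U := U) (le_refl U)) = I := by
    have : pb (𝟙 X) (U := U) (le_refl U) = RingHom.id Γ(X, U) :=
      RingHom.ext fun a => (pb_id (U := U) (V := U) le_rfl a).trans (res_refl _ a)
    rw [this, Ideal.map_id]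
  rw [← Pic.comap_id D.cls]
  refine (hD.isPullback (𝟙 X) (U' := U) rfl ?_).cls_eq
  rwa [hI]

/-- An equation is a unit near the points of `U` where the ideal is trivial, and outside `U`. -/
theorem IsGenBy.isUnit_eqn (hD : D.IsGenBy U I) (x : X) {W : X.Opens} (hW : W ≤ D.V x)
    (h : ∀ z ∈ W, z ∈ U → ∃ a ∈ I, z ∈ X.basicOpen a) : IsUnit (D.eqn x hW) := by
  classical
  have key : ∀ z : W, ∃ (O : X.Opens) (hO : O ≤ W), z.1 ∈ O ∧ IsUnit (D.eqn x (hO.trans hW)) := by
    intro z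
    by_cases hz : z.1 ∈ U
    · obtain ⟨a, ha, hza⟩ := h z z.2 hz
      refine ⟨W ⊓ X.basicOpen a, inf_le_left, ⟨z.2, hza⟩, ?_⟩
      refine isUnit_of_dvd_unit ?_ (isUnit_res_of_mem_basicOpen (W := W ⊓ X.basicOpen a) a
        (inf_le_right.trans (X.basicOpen_le a)) inf_le_right)
      exact (hD x).dvd _ _ _ a ha
    · obtain ⟨O, hO, hzO, hu⟩ := (hD x).unit z (hW z.2) hz
      refine ⟨O ⊓ W, inf_le_right, ⟨hzO, z.2⟩, ?_⟩
      simpa [eqn] using hu.map (res (inf_le_left : O ⊓ W ≤ O))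
  choose O hO hzO hu using key
  refine isUnit_of_dvd_one (dvd_of_cover O hO (fun z hz => ⟨⟨z, hz⟩, hzO ⟨z, hz⟩⟩)
    (fun W' h' => ?_) fun i => ?_)
  · rw [res_eqn]; exact D.eqn_mem_nonZeroDivisors x _
  · rw [res_eqn]; exact (hu i).dvd

/-- `Γ(U, O(D)⁻¹) = I`. -/
theorem IsGenBy.range_invToFun (hD : D.IsGenBy U I) (hU : IsAffineOpen U) :
    LinearMap.range (D.invToFun U) = I := by
  classical
  refine le_antisymm (fun a ha => ?_) fun a ha => D.mem_range_invToFun.2 fun x =>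
    (hD x).dvd _ _ _ a ha
  rw [D.mem_range_invToFun] at ha
  -- near each point, `a` is a multiple of an element of `I`
  have key : ∀ z : U, ∃ t : Γ(X, U), z.1 ∈ X.basicOpen t ∧ ∃ n : ℕ, t ^ n * a ∈ I := by
    intro z
    obtain ⟨O, hOV, hOU, hzO, hm⟩ := (hD z.1).mem z (D.mem z) z.2
    obtain ⟨t, ht, hzt⟩ := hU.exists_basicOpen_le (V := O) ⟨z.1, hzO⟩ z.2
    refine ⟨t, hzt, ?_⟩
    obtain ⟨c, hc⟩ := ha z.1
    have h1 := congrArg (res (le_inf (X.basicOpen_le t) (ht.trans hOV) :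
      X.basicOpen t ≤ U ⊓ D.V z.1)) hc
    rw [map_mul, res_res, res_eqn] at h1
    have h2 := Ideal.mem_map_of_mem (res ht) hm
    rw [res_res, Ideal.map_map] at h2
    have h3 : res (X.basicOpen_le t) a ∈ I.map (res (X.basicOpen_le t)) := by
      rw [h1]
      refine Ideal.mul_mem_right _ _ ?_
      convert! h2 using 2
      ext b
      simp
    let : Algebra Γ(X, U) Γ(X, X.basicOpen t) := (res (X.basicOpen_le t)).toAlgebra
    have : IsLocalization.Away t Γ(X, X.basicOpen t) := hU.isLocalization_basicOpen t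
    obtain ⟨_, ⟨n, rfl⟩, hn⟩ := (IsLocalization.algebraMap_mem_map_algebraMap_iff
      (Submonoid.powers t) Γ(X, X.basicOpen t) I a).1 h3
    exact ⟨n, hn⟩
  choose t hzt n hn using key
  refine Submodule.mem_of_span_eq_top_of_smul_pow_mem I (Set.range t) ?_ a fun r => ?_
  · rw [← hU.iSup_basicOpen_eq_self_iff]
    refine le_antisymm (iSup_le fun f => X.basicOpen_le _) fun z hz => ?_
    exact Opens.mem_iSup.mpr ⟨⟨t ⟨z, hz⟩, ⟨z, hz⟩, rfl⟩, hzt ⟨z, hz⟩⟩
  · obtain ⟨_, z, rfl⟩ := r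
    exact ⟨n z, hn z⟩

end EffDiv

end Fermat.Agent.Jacobian
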