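import Mathlib.RingTheory.TensorProduct.Free
import Mathlib.RingTheory.TensorProduct.Maps
import Mathlib.RingTheory.Ideal.Quotient.Operations
import Mathlib.RingTheory.FinitePresentation
import Mathlib.RingTheory.Polynomial.Basic
import Mathlib.LinearAlgebra.TensorProduct.Tower
import Mathlib.LinearAlgebra.TensorProduct.RightExactness

/-!
# Charts of the Hilbert scheme of points of an affine scheme

For `b : Fin g → A` the functor `R ↦ {I ⊆ R ⊗[k] A | b is an R-basis of the quotient}` is
represented by the finitely generated `k`-algebra `ChartRing k b`.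
-/

set_option autoImplicit false

universe u

noncomputable section

open scoped TensorProduct

namespace Fermat.Agent.Jacobian

variable {k A : Type u} [Field k] [CommRing A] [Algebra k A] {g : ℕ}

/-- `c ↦ ∑ c_i ⊗ b_i`. -/
def chartSec (k : Type u) [Field k] [Algebra k A] (b : Fin g → A) (R : Type u) [CommRing R]
    [Algebra k R] : (Fin g → R) →ₗ[R] R ⊗[k] A :=
  Fintype.linearCombination R fun i => (1 : R) ⊗ₜ[k] b i

theorem chartSec_apply (b : Fin g → A) {R : Type u} [CommRing R] [Algebra k R] (c : Fin g → R) :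
    chartSec k b R c = ∑ i, c i ⊗ₜ[k] b i := by
  simp [chartSec, Fintype.linearCombination_apply, TensorProduct.smul_tmul']

/-- The `R`-linear map `(Fin g → R) → A_R ⧸ I` given by `b`. -/
def chartQuot (b : Fin g → A) {R : Type u} [CommRing R] [Algebra k R] (I : Ideal (R ⊗[k] A)) :
    (Fin g → R) →ₗ[R] (R ⊗[k] A) ⧸ I :=
  (Ideal.Quotient.mkₐ R I).toLinearMap.comp (chartSec k b R)

/-- `b` is a basis of the quotient by `I`. -/
def IsChartIdeal (b : Fin g → A) {R : Type u} [CommRing R] [Algebra k R]
    (I : Ideal (R ⊗[k] A)) : Prop :=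
  Function.Bijective (chartQuot b I)

theorem IsChartIdeal.free {b : Fin g → A} {R : Type u} [CommRing R] [Algebra k R]
    {I : Ideal (R ⊗[k] A)} (h : IsChartIdeal b I) : Module.Free R ((R ⊗[k] A) ⧸ I) :=
  Module.Free.of_equiv (LinearEquiv.ofBijective _ h)

theorem IsChartIdeal.finite {b : Fin g → A} {R : Type u} [CommRing R] [Algebra k R]
    {I : Ideal (R ⊗[k] A)} (h : IsChartIdeal b I) : Module.Finite R ((R ⊗[k] A) ⧸ I) :=
  Module.Finite.equiv (LinearEquiv.ofBijective _ h)

variable (k) in
/-- The coordinate map of a chart ideal. -/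
structure ChartData (b : Fin g → A) (R : Type u) [CommRing R] [Algebra k R] where
  q : A →ₗ[k] (Fin g → R)
  q_basis : ∀ i, q (b i) = Pi.single i 1
  q_mul : ∀ a c, q (a * c) = ∑ i, q a i • q (b i * c)

namespace ChartData

variable {b : Fin g → A} {R R' : Type u} [CommRing R] [Algebra k R] [CommRing R'] [Algebra k R']

@[ext]
theorem ext {D D' : ChartData k b R} (h : ∀ a, D.q a = D'.q a) : D = D' := by
  obtain ⟨q, _, _⟩ := D
  obtain ⟨q', _, _⟩ := D'
  obtain rfl : q = q' := LinearMap.ext h
  rfl

variable (D : ChartData k b R)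

/-- The base change of `q`. -/
def qR : R ⊗[k] A →ₗ[R] (Fin g → R) := D.q.liftBaseChange R

theorem qR_tmul (r : R) (a : A) : D.qR (r ⊗ₜ a) = r • D.q a := by simp [qR]

theorem qR_sec (c : Fin g → R) : D.qR (chartSec k b R c) = c := by
  rw [chartSec_apply, map_sum]
  ext j
  simp [qR_tmul, D.q_basis, Pi.single_apply]

theorem qR_mul (z w : R ⊗[k] A) :
    D.qR (z * w) = ∑ i, D.qR z i • D.qR ((1 ⊗ₜ b i) * w) := by
  induction z using TensorProduct.induction_on with
  | zero => simp
  | add x y hx hy => simp [add_mul, hx, hy, add_smul, Finset.sum_add_distrib]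
  | tmul r a =>
    induction w using TensorProduct.induction_on with
    | zero => simp
    | add x y hx hy => simp [mul_add, hx, hy, smul_add, Finset.sum_add_distrib]
    | tmul s c =>
      simp only [Algebra.TensorProduct.tmul_mul_tmul, qR_tmul, one_mul, D.q_mul a c, Finset.smul_sum,
        smul_smul, Pi.smul_apply, smul_eq_mul]
      exact Finset.sum_congr rfl fun i _ => by ring_nf

/-- The chart ideal. -/
def ideal : Ideal (R ⊗[k] A) where
  carrier := {z | D.qR z = 0}
  add_mem' := fun {x y} hx hy => by simp_all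
  zero_mem' := map_zero D.qR
  smul_mem' := fun c z (hz : D.qR z = 0) => by
    show D.qR (c * z) = 0
    rw [mul_comm, D.qR_mul, hz]
    simp

theorem mem_ideal {z : R ⊗[k] A} : z ∈ D.ideal ↔ D.qR z = 0 := Iff.rfl

theorem sub_sec_mem (z : R ⊗[k] A) : z - chartSec k b R (D.qR z) ∈ D.ideal := by
  rw [mem_ideal, map_sub, qR_sec, sub_self]

theorem isChartIdeal_ideal : IsChartIdeal b D.ideal := by
  constructor
  · intro c c' h
    have h' : chartSec k b R c - chartSec k b R c' ∈ D.ideal := Ideal.Quotient.eq.1 h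
    rwa [mem_ideal, map_sub, qR_sec, qR_sec, sub_eq_zero] at h'
  · intro y
    obtain ⟨z, rfl⟩ := Ideal.Quotient.mk_surjective y
    exact ⟨D.qR z, (Ideal.Quotient.eq.2 (D.sub_sec_mem z)).symm⟩

/-- Functoriality. -/
def map (f : R →ₐ[k] R') : ChartData k b R' where
  q := LinearMap.pi fun i => f.toLinearMap.comp ((LinearMap.proj i).comp D.q)
  q_basis i := by ext j; simp [D.q_basis, Pi.single_apply, apply_ite f]
  q_mul a c := by
    ext j
    simp [D.q_mul a c, map_sum]

theorem map_q (f : R →ₐ[k] R') (a : A) (i : Fin g) : (D.map f).q a i = f (D.q a i) := rfl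

theorem ideal_map (f : R →ₐ[k] R') :
    (D.map f).ideal = D.ideal.map (Algebra.TensorProduct.map f (AlgHom.id k A)) := by
  have hcomm : ∀ z, (D.map f).qR (Algebra.TensorProduct.map f (AlgHom.id k A) z) =
      fun i => f (D.qR z i) := by
    intro z
    induction z using TensorProduct.induction_on with
    | zero => ext; simp
    | add x y hx hy => ext i; simp [hx, hy]
    | tmul r a => ext i; simp [qR_tmul, map_q]
  refine le_antisymm (fun z hz => ?_) (Ideal.map_le_iff_le_comap.2 fun z hz => ?_)
  · have hgen : ∀ w : R' ⊗[k] A, w - chartSec k b R' ((D.map f).qR w) ∈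
        D.ideal.map (Algebra.TensorProduct.map f (AlgHom.id k A)) := by
      intro w
      induction w using TensorProduct.induction_on with
      | zero => simp
      | add x y hx hy =>
        rw [map_add, map_add, add_sub_add_comm]
        exact add_mem hx hy
      | tmul r a =>
        have he : (r ⊗ₜ[k] a : R' ⊗[k] A) - chartSec k b R' ((D.map f).qR (r ⊗ₜ a)) =
            (r ⊗ₜ 1) * Algebra.TensorProduct.map f (AlgHom.id k A)
              ((1 : R) ⊗ₜ a - chartSec k b R (D.qR (1 ⊗ₜ a))) := by
          simp [qR_tmul, map_q, chartSec_apply, mul_sub, Finset.mul_sum, map_sum, Finset.smul_sum,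
            TensorProduct.smul_tmul']
        rw [he]
        exact Ideal.mul_mem_left _ _ (Ideal.mem_map_of_mem _ (D.sub_sec_mem _))
    have := hgen z
    rwa [(D.map f).mem_ideal.1 hz, map_zero, sub_zero] at this
  · rw [Ideal.mem_comap, mem_ideal, hcomm, D.mem_ideal.1 hz]
    ext; simp

end ChartData

section ofIdeal

variable {b : Fin g → A} {R : Type u} [CommRing R] [Algebra k R] {I : Ideal (R ⊗[k] A)}

/-- The coordinates modulo a chart ideal. -/
def IsChartIdeal.coord (h : IsChartIdeal b I) : R ⊗[k] A →ₗ[R] (Fin g → R) :=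
  (LinearEquiv.ofBijective _ h).symm.toLinearMap.comp (Ideal.Quotient.mkₐ R I).toLinearMap

theorem IsChartIdeal.mk_sec_coord (h : IsChartIdeal b I) (z : R ⊗[k] A) :
    Ideal.Quotient.mk I (chartSec k b R (h.coord z)) = Ideal.Quotient.mk I z :=
  (LinearEquiv.ofBijective _ h).apply_symm_apply _

theorem IsChartIdeal.coord_eq_iff (h : IsChartIdeal b I) {z : R ⊗[k] A} {c : Fin g → R} :
    h.coord z = c ↔ z - chartSec k b R c ∈ I := by
  rw [← Ideal.Quotient.eq]
  refine ⟨fun e => e ▸ (h.mk_sec_coord z).symm, fun e => h.1 ?_⟩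
  exact (h.mk_sec_coord z).trans e

/-- The data of a chart ideal. -/
def ChartData.ofIdeal (h : IsChartIdeal b I) : ChartData k b R where
  q := (h.coord.restrictScalars k).comp
    (Algebra.TensorProduct.includeRight : A →ₐ[k] R ⊗[k] A).toLinearMap
  q_basis i := by
    show h.coord (1 ⊗ₜ b i) = _
    rw [h.coord_eq_iff]
    simp [chartSec]
  q_mul a c := by
    show h.coord (1 ⊗ₜ (a * c)) = ∑ i, h.coord (1 ⊗ₜ a) i • h.coord (1 ⊗ₜ (b i * c))
    simp only [← map_smul, ← map_sum]
    have h1 : (1 : R) ⊗ₜ[k] (a * c) - ∑ i, h.coord (1 ⊗ₜ a) i • ((1 : R) ⊗ₜ[k] (b i * c)) =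
        ((1 : R) ⊗ₜ[k] a - chartSec k b R (h.coord (1 ⊗ₜ a))) * (1 ⊗ₜ c) := by
      simp [chartSec, Fintype.linearCombination_apply, sub_mul, Finset.sum_mul]
    rw [← sub_eq_zero, ← map_sub, h.coord_eq_iff, map_zero, sub_zero, h1]
    exact I.mul_mem_right _ ((h.coord_eq_iff).1 rfl)

theorem ChartData.qR_ofIdeal (h : IsChartIdeal b I) (z : R ⊗[k] A) :
    (ChartData.ofIdeal h).qR z = h.coord z := by
  induction z using TensorProduct.induction_on with
  | zero => simp
  | add x y hx hy => simp [hx, hy]
  | tmul r a =>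
    rw [ChartData.qR_tmul]
    show r • h.coord (1 ⊗ₜ a) = _
    rw [← map_smul, TensorProduct.smul_tmul', smul_eq_mul, mul_one]

theorem ChartData.ideal_ofIdeal (h : IsChartIdeal b I) : (ChartData.ofIdeal h).ideal = I := by
  ext z
  rw [ChartData.mem_ideal, ChartData.qR_ofIdeal, h.coord_eq_iff, map_zero, sub_zero]

end ofIdeal

/-- Chart data are the same as chart ideals. -/
def chartDataEquiv (b : Fin g → A) (R : Type u) [CommRing R] [Algebra k R] :
    ChartData k b R ≃ {I : Ideal (R ⊗[k] A) // IsChartIdeal b I} where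
  toFun D := ⟨D.ideal, D.isChartIdeal_ideal⟩
  invFun I := ChartData.ofIdeal I.2
  left_inv D := by
    refine ChartData.ext fun a => ?_
    show D.isChartIdeal_ideal.coord (1 ⊗ₜ a) = D.q a
    rw [IsChartIdeal.coord_eq_iff]
    simpa [D.qR_tmul] using D.sub_sec_mem ((1 : R) ⊗ₜ a)
  right_inv I := Subtype.ext (ChartData.ideal_ofIdeal I.2)

variable (k) in
/-- The relations of the chart ring, in the variables `X (a, i) = q(a)ᵢ`. -/
def chartRel (b : Fin g → A) : Ideal (MvPolynomial (A × Fin g) k) :=
  Ideal.span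
    (Set.range (fun p : A × A × Fin g =>
        MvPolynomial.X (p.1 + p.2.1, p.2.2) - MvPolynomial.X (p.1, p.2.2) -
          MvPolynomial.X (p.2.1, p.2.2)) ∪
      Set.range (fun p : k × A × Fin g =>
        MvPolynomial.X (p.1 • p.2.1, p.2.2) - MvPolynomial.C p.1 * MvPolynomial.X (p.2.1, p.2.2)) ∪
      Set.range (fun p : Fin g × Fin g =>
        MvPolynomial.X (b p.1, p.2) - MvPolynomial.C ((Pi.single p.1 1 : Fin g → k) p.2)) ∪
      Set.range (fun p : A × A × Fin g =>
        MvPolynomial.X (p.1 * p.2.1, p.2.2) -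
          ∑ i, MvPolynomial.X (p.1, i) * MvPolynomial.X (b i * p.2.1, p.2.2)))

variable (k) in
/-- The coordinate ring of the chart of `b`. -/
abbrev ChartRing (b : Fin g → A) : Type u := MvPolynomial (A × Fin g) k ⧸ chartRel k b

variable (k) in
/-- The coordinate `q(a)ᵢ`. -/
def chartVar (b : Fin g → A) (a : A) (i : Fin g) : ChartRing k b :=
  Ideal.Quotient.mk _ (MvPolynomial.X (a, i))

variable (k) in
/-- The universal chart data. -/
def chartUniv (b : Fin g → A) : ChartData k b (ChartRing k b) where
  q :=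
    { toFun := fun a i => chartVar k b a i
      map_add' := fun a c => by
        ext i
        refine (Ideal.Quotient.eq.2 ?_).trans (map_add _ _ _)
        rw [← sub_sub]
        exact Ideal.subset_span (Or.inl (Or.inl (Or.inl ⟨(a, c, i), rfl⟩)))
      map_smul' := fun r a => by
        ext i
        simp only [RingHom.id_apply, Pi.smul_apply, Algebra.smul_def (A := ChartRing k b)]
        refine (Ideal.Quotient.eq.2 ?_).trans (map_mul _ _ _)
        exact Ideal.subset_span (Or.inl (Or.inl (Or.inr ⟨(r, a, i), rfl⟩))) }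
  q_basis i := by
    ext j
    have : (Pi.single i 1 : Fin g → ChartRing k b) j =
        algebraMap k (ChartRing k b) ((Pi.single i 1 : Fin g → k) j) := by
      simp [Pi.single_apply, apply_ite (algebraMap k (ChartRing k b))]
    rw [this]
    exact Ideal.Quotient.eq.2 (Ideal.subset_span (Or.inl (Or.inr ⟨(i, j), rfl⟩)))
  q_mul a c := by
    ext j
    simp only [Finset.sum_apply, Pi.smul_apply, smul_eq_mul]
    have h : MvPolynomial.X (a * c, j) - ∑ i, MvPolynomial.X (a, i) * MvPolynomial.X (b i * c, j) ∈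
        chartRel k b := Ideal.subset_span (Or.inr ⟨(a, c, j), rfl⟩)
    refine (Ideal.Quotient.eq.2 h).trans ?_
    simp [chartVar, map_sum]

theorem chartUniv_q (b : Fin g → A) (a : A) (i : Fin g) :
    (chartUniv k b).q a i = chartVar k b a i := rfl

/-- The homomorphism classifying chart data. -/
def ChartData.lift {b : Fin g → A} {R : Type u} [CommRing R] [Algebra k R] (D : ChartData k b R) :
    ChartRing k b →ₐ[k] R :=
  Ideal.Quotient.liftₐ _ (MvPolynomial.aeval fun p : A × Fin g => D.q p.1 p.2) fun x hx => by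
    rw [← RingHom.mem_ker]
    revert x hx
    show chartRel k b ≤ RingHom.ker _
    rw [chartRel, Ideal.span_le]
    rintro _ (((⟨⟨a, c, i⟩, rfl⟩ | ⟨⟨r, a, i⟩, rfl⟩) | ⟨⟨i, j⟩, rfl⟩) | ⟨⟨a, c, i⟩, rfl⟩)
    · simp
    · simp [Algebra.smul_def (A := R)]
    · simp [D.q_basis, Pi.single_apply]
    · simp [D.q_mul a c]

theorem ChartData.lift_var {b : Fin g → A} {R : Type u} [CommRing R] [Algebra k R]
    (D : ChartData k b R) (a : A) (i : Fin g) : D.lift (chartVar k b a i) = D.q a i := by
  show MvPolynomial.aeval (fun p : A × Fin g => D.q p.1 p.2) (MvPolynomial.X (a, i)) = _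
  simp

/-- `ChartRing` represents chart data. -/
def chartHomEquiv (b : Fin g → A) (R : Type u) [CommRing R] [Algebra k R] :
    (ChartRing k b →ₐ[k] R) ≃ ChartData k b R where
  toFun φ := (chartUniv k b).map φ
  invFun D := D.lift
  left_inv φ := by
    refine Ideal.Quotient.algHom_ext k (MvPolynomial.algHom_ext fun p => ?_)
    exact ((chartUniv k b).map φ).lift_var p.1 p.2
  right_inv D := ChartData.ext fun a => funext fun i => D.lift_var a i

/-- `ChartRing k b` represents the chart functor. -/
def chartEquiv (b : Fin g → A) (R : Type u) [CommRing R] [Algebra k R] :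
    (ChartRing k b →ₐ[k] R) ≃ {I : Ideal (R ⊗[k] A) // IsChartIdeal b I} :=
  (chartHomEquiv b R).trans (chartDataEquiv b R)

theorem chartEquiv_comp (b : Fin g → A) {R R' : Type u} [CommRing R] [Algebra k R] [CommRing R']
    [Algebra k R'] (f : R →ₐ[k] R') (φ : ChartRing k b →ₐ[k] R) :
    (chartEquiv b R' (f.comp φ) : Ideal (R' ⊗[k] A)) =
      (chartEquiv b R φ : Ideal (R ⊗[k] A)).map (Algebra.TensorProduct.map f (AlgHom.id k A)) := by
  show ((chartUniv k b).map (f.comp φ)).ideal = _
  rw [show (chartUniv k b).map (f.comp φ) = ((chartUniv k b).map φ).map f from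
    ChartData.ext fun a => rfl, ChartData.ideal_map]
  rfl

theorem isChartIdeal_map {b : Fin g → A} {R R' : Type u} [CommRing R] [Algebra k R] [CommRing R']
    [Algebra k R'] (f : R →ₐ[k] R') {I : Ideal (R ⊗[k] A)} (h : IsChartIdeal b I) :
    IsChartIdeal b (I.map (Algebra.TensorProduct.map f (AlgHom.id k A))) := by
  rw [← ChartData.ideal_ofIdeal h, ← ChartData.ideal_map]
  exact ChartData.isChartIdeal_ideal _

instance finiteType_chartRing [Algebra.FiniteType k A] (b : Fin g → A) :
    Algebra.FiniteType k (ChartRing k b) := by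
  classical
  obtain ⟨G, hG⟩ := (‹Algebra.FiniteType k A›).out
  set gens : Finset (ChartRing k b) :=
    (Finset.univ.image fun i => chartVar k b 1 i) ∪
      ((G ×ˢ (Finset.univ : Finset (Fin g × Fin g))).image fun p =>
        chartVar k b (b p.2.1 * p.1) p.2.2)
  set S := Algebra.adjoin k (gens : Set (ChartRing k b))
  have h1 : ∀ i, chartVar k b 1 i ∈ S := fun i => Algebra.subset_adjoin (by
    simp only [gens, Finset.coe_union, Finset.coe_image]
    exact Or.inl ⟨i, by simp, rfl⟩)
  have h2 : ∀ x ∈ G, ∀ l i, chartVar k b (b l * x) i ∈ S := fun x hx l i => Algebra.subset_adjoin (by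
    simp only [gens, Finset.coe_union, Finset.coe_image]
    exact Or.inr ⟨(x, (l, i)), by simp [hx], rfl⟩)
  let q := (chartUniv k b).q
  let T : Submodule k A :=
    { carrier := {a | ∀ c : A, (∀ l i, q (b l * c) i ∈ S) → ∀ l i, q (b l * (a * c)) i ∈ S}
      add_mem' := fun {x y} hx hy c hc l i => by
        rw [add_mul, mul_add, map_add]
        exact add_mem (hx c hc l i) (hy c hc l i)
      zero_mem' := fun c _ l i => by simp
      smul_mem' := fun r x hx c hc l i => by
        rw [smul_mul_assoc, mul_smul_comm, map_smul]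
        exact S.smul_mem (hx c hc l i) r }
  let T' : Subalgebra k A := T.toSubalgebra (fun c hc l i => by rw [one_mul]; exact hc l i)
    fun x y hx hy c hc l i => by rw [mul_assoc]; exact hx _ (hy c hc) l i
  have hgen : (G : Set A) ⊆ T' := by
    intro x hx c hc l i
    have he : q (b l * (x * c)) i = ∑ m, q (b l * x) m * q (b m * c) i := by
      rw [← mul_assoc]
      show (chartUniv k b).q _ i = _
      rw [(chartUniv k b).q_mul]
      simp [q]
    rw [he]
    exact sum_mem fun m _ => mul_mem (h2 x hx l m) (hc m i)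
  have hall : ∀ a : A, a ∈ T' := fun a =>
    Algebra.adjoin_le hgen (hG ▸ (Algebra.mem_top : a ∈ (⊤ : Subalgebra k A)))
  have hbase : ∀ l i, q (b l * 1) i ∈ S := fun l i => by
    rw [mul_one]
    show (chartUniv k b).q (b l) i ∈ S
    rw [(chartUniv k b).q_basis, Pi.single_apply]
    split_ifs
    exacts [one_mem S, zero_mem S]
  have hvar : ∀ a i, chartVar k b a i ∈ S := by
    intro a i
    have := (chartUniv k b).q_mul 1 a
    rw [one_mul] at this
    show (chartUniv k b).q a i ∈ S
    rw [this]
    simp only [Finset.sum_apply, Pi.smul_apply, smul_eq_mul]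
    refine sum_mem fun m _ => mul_mem (h1 m) ?_
    simpa using hall a 1 hbase m i
  refine ⟨⟨gens, eq_top_iff.2 fun x _ => ?_⟩⟩
  obtain ⟨p, rfl⟩ := Ideal.Quotient.mk_surjective x
  induction p using MvPolynomial.induction_on with
  | C r => exact S.algebraMap_mem r
  | add p q hp hq => rw [map_add]; exact add_mem (hp trivial) (hq trivial)
  | mul_X p n hp => rw [map_mul]; exact mul_mem (hp trivial) (hvar n.1 n.2)

theorem finitePresentation_chartRing [Algebra.FiniteType k A] (b : Fin g → A) :
    Algebra.FinitePresentation k (ChartRing k b) :=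
  Algebra.FinitePresentation.of_finiteType.1 inferInstance

end Fermat.Agent.Jacobian
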