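import Fermat.Agent.Jacobian.Divisor.Chart
import Mathlib.LinearAlgebra.FiniteDimensional.Defs
import Mathlib.LinearAlgebra.Dimension.Finrank
import Mathlib.LinearAlgebra.Basis.VectorSpace

/-!
# Over a field, some finite family of functions is a basis of a finite quotient
-/

set_option autoImplicit false

universe u

noncomputable section

open scoped TensorProduct

namespace Fermat.Agent.Jacobian

variable {k A K : Type u} [Field k] [CommRing A] [Algebra k A] [Field K] [Algebra k K]

/-- A finite quotient of `K ⊗ A` over a field `K` has a basis coming from `A`. -/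
theorem exists_isChartIdeal (I : Ideal (K ⊗[k] A)) [Module.Finite K ((K ⊗[k] A) ⧸ I)] :
    ∃ b : Fin (Module.finrank K ((K ⊗[k] A) ⧸ I)) → A, IsChartIdeal b I := by
  let Q := (K ⊗[k] A) ⧸ I
  let π : A → Q := fun a => Ideal.Quotient.mk I (1 ⊗ₜ a)
  have hspan : ⊤ ≤ Submodule.span K (Set.range π) := by
    rintro q -
    obtain ⟨z, rfl⟩ := Ideal.Quotient.mk_surjective q
    induction z using TensorProduct.induction_on with
    | zero => rw [map_zero]; exact zero_mem _
    | add x y hx hy => rw [map_add]; exact add_mem hx hy
    | tmul r a =>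
      have e : Ideal.Quotient.mk I (r ⊗ₜ a) = r • π a := by
        show _ = r • Ideal.Quotient.mkₐ K I (1 ⊗ₜ a)
        rw [← map_smul, TensorProduct.smul_tmul', smul_eq_mul, mul_one]
        rfl
      rw [e]
      exact Submodule.smul_mem _ _ (Submodule.subset_span ⟨a, rfl⟩)
  obtain ⟨s, hs, hspan', hli⟩ := exists_linearIndependent K (Set.range π)
  let B : Module.Basis s K Q :=
    Module.Basis.mk hli (by rw [Subtype.range_coe, hspan']; exact hspan)
  let e : Fin (Module.finrank K Q) ≃ s :=
    ((Module.finBasis K Q).indexEquiv B)
  choose a ha using fun i : s => hs i.2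
  refine ⟨fun i => a (e i), ?_⟩
  have heq : chartQuot (fun i => a (e i)) I =
      (B.reindex e.symm).equivFun.symm.toLinearMap := by
    refine LinearMap.pi_ext' fun i => LinearMap.ext_ring ?_
    have e1 : chartSec k (fun i => a (e i)) K (Pi.single i 1) = (1 : K) ⊗ₜ[k] a (e i) := by
      rw [chartSec, Fintype.linearCombination_apply_single, one_smul]
    simp only [LinearMap.coe_comp, Function.comp_apply, LinearMap.coe_single]
    show Ideal.Quotient.mk I (chartSec k (fun i => a (e i)) K (Pi.single i 1)) = _
    rw [e1]
    refine (ha (e i)).trans ?_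
    simp [B]
  rw [IsChartIdeal, heq]
  exact (B.reindex e.symm).equivFun.symm.bijective

end Fermat.Agent.Jacobian
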