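import Fermat.Agent.Jacobian.Divisor.Cocycle

/-!
# The class of a chart ideal
-/

set_option autoImplicit false

noncomputable section

universe u

open CategoryTheory TopologicalSpace AlgebraicGeometry TensorProduct

namespace Fermat.Agent.Jacobian

variable {k : Type u} [Field k] {C : Scheme.{u}} {c : C ⟶ Spec (CommRingCat.of k)}

namespace CurveChart

variable (ch : CurveChart c) {R : Type u} [CommRing R] [Algebra k R]
  (I : Ideal (R ⊗[k] Fun c ch.U₀))

/-- The line bundle class `O(D)` of a chart ideal. -/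
def chartCls [Module.Finite R ((R ⊗[k] Fun c ch.U₀) ⧸ I)]
    [Module.Projective R ((R ⊗[k] Fun c ch.U₀) ⧸ I)]
    (H : FibresLocallyPrincipal k (Fun c ch.U₀)) : Pic (CR c R) :=
  (ch.divisor I H).cls

variable [Module.Finite R ((R ⊗[k] Fun c ch.U₀) ⧸ I)]
  [Module.Projective R ((R ⊗[k] Fun c ch.U₀) ⧸ I)]
  (H : FibresLocallyPrincipal k (Fun c ch.U₀))

theorem chartCls_eq_cls {D : EffDiv (CR c R)}
    (hD : D.IsGenBy (overU c R ch.U₀) (ch.idealOn R I)) : ch.chartCls I H = D.cls :=
  hD.cls_eq (ch.isGenBy_divisor I H)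

theorem comap_chartCls {S : Type u} [CommRing S] [Algebra k S] (φ : R →ₐ[k] S)
    [Module.Finite S ((S ⊗[k] Fun c ch.U₀) ⧸ I.map (ch.baseChangeHom φ))]
    [Module.Projective S ((S ⊗[k] Fun c ch.U₀) ⧸ I.map (ch.baseChangeHom φ))] :
    Pic.comap (crMap c R S φ) (ch.chartCls I H) = ch.chartCls (I.map (ch.baseChangeHom φ)) H :=
  (ch.cls_divisor_map I φ _ rfl H).symm

/-- The canonical section is a frame on an open which covers `C_R` together with the first chart,
and on every open of the first chart where the ideal is trivial. -/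
theorem exists_isUnit_eqn :
    ∃ W : (CR c R).Opens, overU c R ch.U₀ ⊔ W = ⊤ ∧
      ∀ (x : CR c R) (V : (CR c R).Opens), V ≤ W → ∀ hV : V ≤ (ch.divisor I H).V x,
        IsUnit ((ch.divisor I H).eqn x hV) := by
  obtain ⟨U', hcov, haway⟩ := ch.exists_open_away I
  refine ⟨U', eq_top_iff.2 fun z _ => ?_, fun x V hVW hV => ?_⟩
  · by_cases hz : z ∈ overU c R ch.U₀
    · exact Or.inl hz
    · exact Or.inr (hcov z hz)
  · exact (ch.isGenBy_divisor I H).isUnit_eqn x hV fun z hz hzU => haway z hzU (hVW hz)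

/-- The divisor determines the ideal. -/
theorem eq_of_isGenBy {J : Ideal (R ⊗[k] Fun c ch.U₀)} {D : EffDiv (CR c R)}
    (hI : D.IsGenBy (overU c R ch.U₀) (ch.idealOn R I))
    (hJ : D.IsGenBy (overU c R ch.U₀) (ch.idealOn R J)) : I = J := by
  have h : ch.idealOn R I = ch.idealOn R J :=
    (hI.range_invToFun (isAffineOpen_overU c R ch.affine₀)).symm.trans
      (hJ.range_invToFun (isAffineOpen_overU c R ch.affine₀))
  ext a
  rw [← ch.mem_idealOn I, ← ch.mem_idealOn J, h]

end CurveChart

end Fermat.Agent.Jacobian
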