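import Fermat.Agent.Jacobian.Divisor.AffineIdeal
import Fermat.Agent.Jacobian.Relative
import Mathlib.Algebra.Polynomial.Reverse
import Mathlib.RingTheory.TensorProduct.Maps

/-!
# The divisor of an ideal of the first chart of `C_R`

An ideal `I` of `R ⊗[k] Γ(C, U₀)` with finite projective quotient over `R` contains a monic
polynomial in `x`, hence is trivial near infinity, and is locally principal: it defines an
effective divisor on `C_R`, compatibly with base change.
-/

set_option autoImplicit false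

noncomputable section

universe u

open CategoryTheory TopologicalSpace AlgebraicGeometry TensorProduct Polynomial

namespace Fermat.Agent.Jacobian

variable {k : Type u} [Field k] {C : Scheme.{u}} {c : C ⟶ Spec (CommRingCat.of k)}

namespace CurveChart

variable (ch : CurveChart c)

/-- The chart with the roles of the two affines exchanged. -/
def symm : CurveChart c where
  U₀ := ch.U₁
  U₁ := ch.U₀
  affine₀ := ch.affine₁
  affine₁ := ch.affine₀
  cover := by rw [sup_comm, ch.cover]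
  x := ch.y
  y := ch.x
  inf_eq₀ := by rw [inf_comm, ch.inf_eq₁]
  inf_eq₁ := by rw [inf_comm, ch.inf_eq₀]
  mul_eq := by
    have h := congrArg (res (le_inf inf_le_right inf_le_left : ch.U₁ ⊓ ch.U₀ ≤ ch.U₀ ⊓ ch.U₁))
      ch.mul_eq
    rw [map_mul, map_one, res_res, res_res] at h
    rw [mul_comm]
    exact h
  finite₀ := ch.finite₁
  finite₁ := ch.finite₀
  free₀ := ch.free₁
  free₁ := ch.free₀

/-- `k[X] → Γ(C, U₀)`, `X ↦ x`, as an algebra structure. -/
@[reducible] def lineAlgebra₀ : Algebra k[X] (Fun c ch.U₀) := (lineHom c ch.x).toAlgebra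

theorem isScalarTower₀ : letI := ch.lineAlgebra₀; IsScalarTower k k[X] (Fun c ch.U₀) := by
  letI := ch.lineAlgebra₀
  exact IsScalarTower.of_algebraMap_eq fun a => by
    change baseHom c ch.U₀ a = lineHom c ch.x (algebraMap k k[X] a)
    rw [lineHom, Polynomial.algebraMap_eq, coe_eval₂RingHom, eval₂_C]

theorem module_finite₀ : letI := ch.lineAlgebra₀; Module.Finite k[X] (Fun c ch.U₀) :=
  ch.finite₀

theorem module_free₀ : letI := ch.lineAlgebra₀; Module.Free k[X] (Fun c ch.U₀) :=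
  ch.free₀

variable (R : Type u) [CommRing R] [Algebra k R]

/-- `R ⊗[k] Γ(C, U₀) → Γ(C_R, U₀)`. -/
def funRingMap : R ⊗[k] Fun c ch.U₀ →+* Γ(CR c R, overU c R ch.U₀) :=
  (funMap c R (le_refl (overU c R ch.U₀))).toRingHom

@[simp] theorem funRingMap_apply (z : R ⊗[k] Fun c ch.U₀) :
    ch.funRingMap R z = funMap c R (le_refl (overU c R ch.U₀)) z := rfl

theorem funRingMap_bijective : Function.Bijective (ch.funRingMap R) :=
  bijective_funMap c R ch.affine₀

/-- An ideal of `R ⊗[k] Γ(C, U₀)` as an ideal of functions on `U₀ × Spec R`. -/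
def idealOn (I : Ideal (R ⊗[k] Fun c ch.U₀)) : Ideal Γ(CR c R, overU c R ch.U₀) :=
  I.map (ch.funRingMap R)

variable {R} (I : Ideal (R ⊗[k] Fun c ch.U₀))

theorem mem_idealOn {a : R ⊗[k] Fun c ch.U₀} :
    ch.funRingMap R a ∈ ch.idealOn R I ↔ a ∈ I := by
  refine ⟨fun h => ?_, Ideal.mem_map_of_mem _⟩
  obtain ⟨b, hb, e⟩ := (Ideal.mem_map_iff_of_surjective _ (ch.funRingMap_bijective R).2).1 h
  exact (ch.funRingMap_bijective R).1 e ▸ hb

/-- Local principality, in terms of points of `C_R`. -/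
theorem exists_isLocGen_idealOn [Module.Finite R ((R ⊗[k] Fun c ch.U₀) ⧸ I)]
    [Module.Projective R ((R ⊗[k] Fun c ch.U₀) ⧸ I)]
    (H : FibresLocallyPrincipal k (Fun c ch.U₀)) (z : CR c R) (hz : z ∈ overU c R ch.U₀) :
    ∃ s, z ∈ (CR c R).basicOpen s ∧ ∃ f, IsLocGen (ch.idealOn R I) s f := by
  letI := ch.lineAlgebra₀
  haveI := ch.isScalarTower₀
  haveI := ch.module_finite₀
  haveI := ch.module_free₀
  let φ : R ⊗[k] Fun c ch.U₀ →+* Γ(CR c R, overU c R ch.U₀) := ch.funRingMap R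
  have hφ := ch.funRingMap_bijective R
  let P : Ideal (R ⊗[k] Fun c ch.U₀) := (IsLocalRing.maximalIdeal ((CR c R).presheaf.stalk z)).comap
    (((CR c R).presheaf.germ (overU c R ch.U₀) z hz).hom.comp φ)
  haveI : P.IsPrime := Ideal.comap_isPrime _ _
  obtain ⟨s, hs, f, hf⟩ := exists_isLocGen I H P
  refine ⟨φ s, ?_, φ f, Ideal.mem_map_of_mem _ hf.mem, fun a ha => ?_, fun b hb => ?_⟩
  · rw [Scheme.mem_basicOpen _ _ z hz]
    simpa [P, IsLocalRing.mem_maximalIdeal, mem_nonunits_iff] using hs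
  · obtain ⟨a, rfl⟩ := hφ.2 a
    rw [← map_mul]
    exact map_dvd φ (hf.dvd a ((ch.mem_idealOn I).1 ha))
  · obtain ⟨b, rfl⟩ := hφ.2 b
    obtain ⟨n, hn⟩ := hf.regular b (hφ.1 (by rw [map_mul, map_zero]; exact hb))
    refine ⟨n, ?_⟩
    have := congrArg φ hn
    rwa [map_mul, map_pow, map_zero] at this

variable (R) in
/-- The function `x` on `U₀ × Spec R`. -/
def xOn : Γ(CR c R, overU c R ch.U₀) :=
  pb (prC c R) (le_refl (overU c R ch.U₀)) ch.x

/-- The ideal is trivial near infinity. -/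
theorem exists_open_away [Module.Finite R ((R ⊗[k] Fun c ch.U₀) ⧸ I)] :
    ∃ U' : (CR c R).Opens, (∀ z, z ∉ overU c R ch.U₀ → z ∈ U') ∧
      ∀ z ∈ overU c R ch.U₀, z ∈ U' → ∃ a ∈ ch.idealOn R I, z ∈ (CR c R).basicOpen a := by
  letI := ch.lineAlgebra₀
  haveI := ch.isScalarTower₀
  obtain ⟨χ, hχ, hχI⟩ := exists_monic_aeval_mem I
  set V := overU c R ch.U₁
  let yR : Γ(CR c R, V) := pb (prC c R) (le_refl V) ch.y
  let g₁ : Γ(CR c R, V) := χ.reverse.eval₂ (scalar c R V) yR
  have hinf : overU c R ch.U₀ ⊓ V = (CR c R).basicOpen yR := by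
    change prC c R ⁻¹ᵁ (ch.U₀ ⊓ ch.U₁) = _
    rw [ch.inf_eq₁, Scheme.preimage_basicOpen]
    simp [yR, pb, Scheme.Hom.appLE]
  refine ⟨(CR c R).basicOpen g₁, fun z hz => ?_, fun z hz hz' => ?_⟩
  · have hzV : z ∈ V := by
      have : z ∈ overU c R ch.U₀ ⊔ V := by
        rw [overU_cover c R ch.cover]; trivial
      exact this.resolve_left hz
    have hy : ¬ IsUnit ((CR c R).presheaf.germ V z hzV yR) := fun h => hz
      ((hinf.ge ((Scheme.mem_basicOpen _ _ z hzV).2 h)).1)
    rw [Scheme.mem_basicOpen _ _ z hzV]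
    obtain ⟨q, hq⟩ : ∃ q, χ.reverse = Polynomial.C 1 + Polynomial.X * q := ⟨χ.reverse.divX, by
      conv_lhs => rw [← Polynomial.divX_mul_X_add χ.reverse]
      rw [Polynomial.coeff_zero_reverse, hχ.leadingCoeff, add_comm, mul_comm]⟩
    simp only [g₁, hq, eval₂_add, eval₂_mul, eval₂_X, eval₂_one, map_add, map_mul, map_one]
    have hmem : (CR c R).presheaf.germ V z hzV yR *
        (CR c R).presheaf.germ V z hzV (q.eval₂ (scalar c R V) yR) ∈
          IsLocalRing.maximalIdeal ((CR c R).presheaf.stalk z) :=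
      Ideal.mul_mem_right _ _ hy
    by_contra hcon
    have h1 := sub_mem ((IsLocalRing.mem_maximalIdeal _).2 hcon) hmem
    rw [add_sub_cancel_right] at h1
    exact (IsLocalRing.maximalIdeal.isMaximal _).ne_top ((Ideal.eq_top_iff_one _).2 h1)
  · let a := Polynomial.aeval (xR k (Fun c ch.U₀) R) χ
    refine ⟨ch.funRingMap R a, Ideal.mem_map_of_mem _ hχI, ?_⟩
    set W := (CR c R).basicOpen g₁ ⊓ overU c R ch.U₀
    have hWV : W ≤ V := inf_le_left.trans ((CR c R).basicOpen_le g₁)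
    have hWU : W ≤ overU c R ch.U₀ := inf_le_right
    have ha : ch.funRingMap R a
        = χ.eval₂ (scalar c R (overU c R ch.U₀)) (ch.xOn R) := by
      rw [funRingMap_apply]
      simp only [a, ← Polynomial.aeval_algHom_apply]
      rw [Polynomial.aeval_def]
      congr 1
      show funMap c R (le_refl (overU c R ch.U₀)) (1 ⊗ₜ algebraMap k[X] (Fun c ch.U₀) X) = _
      rw [funMap_tmul, map_one, one_mul]
      change pb (prC c R) _ (lineHom c ch.x X) = _
      simp [xOn, lineHom]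
    have hxy : res hWV yR * res hWU (ch.xOn R) = 1 := by
      have h : W ≤ prC c R ⁻¹ᵁ (ch.U₀ ⊓ ch.U₁) := le_inf hWU hWV
      have := congrArg (pb (prC c R) h) ch.mul_eq
      rw [map_mul, map_one, pb_res, pb_res] at this
      rw [mul_comm]
      simpa [xOn, yR, res_pb] using this
    let : Invertible (res hWU (ch.xOn R)) := ⟨res hWV yR, hxy, by rw [mul_comm]; exact hxy⟩
    have hu : IsUnit (res hWU (ch.funRingMap R a)) := by
      have h := eval₂_reverse_mul_pow (scalar c R W) (res hWU (ch.xOn R)) χ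
      have hs : ∀ (O : (CR c R).Opens) (hO : W ≤ O), (res hO).comp (scalar c R O) = scalar c R W :=
        fun O hO => RingHom.ext fun r => res_scalar c R hO r
      rw [ha, hom_eval₂, hs, ← h]
      refine IsUnit.mul ?_ ((IsUnit.of_mul_eq_one (a := res hWU (ch.xOn R)) (res hWV yR)
        (by rw [mul_comm]; exact hxy)).pow _)
      have hinv : (⅟(res hWU (ch.xOn R))) = res hWV yR := rfl
      rw [hinv, ← hs V hWV, ← hom_eval₂]
      exact isUnit_res_of_mem_basicOpen g₁ _ inf_le_left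
    have hle : W ≤ (CR c R).basicOpen (ch.funRingMap R a) := by
      have := Scheme.basicOpen_of_isUnit (CR c R) hu
      rw [basicOpen_res'] at this
      exact this.ge.trans inf_le_right
    exact hle ⟨hz', hz⟩

/-- The divisor of an ideal of the first chart exists. -/
theorem exists_chartDivisor [Module.Finite R ((R ⊗[k] Fun c ch.U₀) ⧸ I)]
    [Module.Projective R ((R ⊗[k] Fun c ch.U₀) ⧸ I)]
    (H : FibresLocallyPrincipal k (Fun c ch.U₀)) :
    ∃ D : EffDiv (CR c R), D.IsGenBy (overU c R ch.U₀) (ch.idealOn R I) := by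
  obtain ⟨U', hcov, haway⟩ := ch.exists_open_away I
  exact exists_isGenBy (isAffineOpen_overU c R ch.affine₀) _ U' hcov haway
    (ch.exists_isLocGen_idealOn I H)

/-- The divisor of an ideal of the first chart. -/
def divisor [Module.Finite R ((R ⊗[k] Fun c ch.U₀) ⧸ I)]
    [Module.Projective R ((R ⊗[k] Fun c ch.U₀) ⧸ I)]
    (H : FibresLocallyPrincipal k (Fun c ch.U₀)) : EffDiv (CR c R) :=
  (ch.exists_chartDivisor I H).choose

theorem isGenBy_divisor [Module.Finite R ((R ⊗[k] Fun c ch.U₀) ⧸ I)]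
    [Module.Projective R ((R ⊗[k] Fun c ch.U₀) ⧸ I)]
    (H : FibresLocallyPrincipal k (Fun c ch.U₀)) :
    (ch.divisor I H).IsGenBy (overU c R ch.U₀) (ch.idealOn R I) :=
  (ch.exists_chartDivisor I H).choose_spec

/-- Sections of `O(D)⁻¹` over the first chart are the ideal. -/
theorem range_invToFun_divisor [Module.Finite R ((R ⊗[k] Fun c ch.U₀) ⧸ I)]
    [Module.Projective R ((R ⊗[k] Fun c ch.U₀) ⧸ I)]
    (H : FibresLocallyPrincipal k (Fun c ch.U₀)) :
    LinearMap.range ((ch.divisor I H).invToFun (overU c R ch.U₀)) = ch.idealOn R I :=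
  (ch.isGenBy_divisor I H).range_invToFun (isAffineOpen_overU c R ch.affine₀)

section BaseChange

variable {S : Type u} [CommRing S] [Algebra k S] (φ : R →ₐ[k] S)

/-- Base change of functions on the first chart. -/
abbrev baseChangeHom : R ⊗[k] Fun c ch.U₀ →ₐ[k] S ⊗[k] Fun c ch.U₀ :=
  Algebra.TensorProduct.map φ (AlgHom.id k (Fun c ch.U₀))

theorem idealOn_map :
    (ch.idealOn R I).map (pb (crMap c R S φ) (U := overU c R ch.U₀)
        (overU_crMap c R S φ ch.U₀).ge) =
      ch.idealOn S (I.map (ch.baseChangeHom φ)) := by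
  rw [idealOn, idealOn, Ideal.map_map, ← Ideal.map_coe (ch.baseChangeHom φ), Ideal.map_map]
  congr 1
  refine Algebra.TensorProduct.ringHom_ext ?_ ?_
  · ext r
    change pb (crMap c R S φ) _ (funMap c R _ (r ⊗ₜ 1)) = funMap c S _ (φ r ⊗ₜ 1)
    rw [funMap_tmul, funMap_tmul, map_one, map_one, mul_one, mul_one]
    exact pb_crMap_scalar c R S φ _ r
  · ext a
    change pb (crMap c R S φ) _ (funMap c R _ (1 ⊗ₜ a)) = funMap c S _ (φ 1 ⊗ₜ a)
    rw [funMap_tmul, map_one, one_mul, map_one, funMap_tmul, map_one, one_mul]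
    exact pb_crMap_prC c R S φ _ _ a

/-- Compatibility of `O(D)` with base change. -/
theorem cls_divisor_map [Module.Finite R ((R ⊗[k] Fun c ch.U₀) ⧸ I)]
    [Module.Projective R ((R ⊗[k] Fun c ch.U₀) ⧸ I)] (J : Ideal (S ⊗[k] Fun c ch.U₀))
    [Module.Finite S ((S ⊗[k] Fun c ch.U₀) ⧸ J)]
    [Module.Projective S ((S ⊗[k] Fun c ch.U₀) ⧸ J)]
    (hJ : I.map (ch.baseChangeHom φ) = J) (H : FibresLocallyPrincipal k (Fun c ch.U₀)) :
    (ch.divisor J H).cls = Pic.comap (crMap c R S φ) (ch.divisor I H).cls := by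
  refine ((ch.isGenBy_divisor I H).isPullback _ (overU_crMap c R S φ ch.U₀).symm ?_).cls_eq
  rw [ch.idealOn_map I φ, hJ]
  exact ch.isGenBy_divisor J H

end BaseChange

section Point

/-- The ideal of an `R`-point of the first chart. -/
def pointIdeal (p : Fun c ch.U₀ →ₐ[k] R) : Ideal (R ⊗[k] Fun c ch.U₀) :=
  RingHom.ker (Algebra.TensorProduct.lift (Algebra.ofId R R) p fun _ _ => Commute.all _ _)

/-- The quotient by the ideal of a point is the base ring. -/
def quotientPointIdeal (p : Fun c ch.U₀ →ₐ[k] R) :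
    ((R ⊗[k] Fun c ch.U₀) ⧸ ch.pointIdeal p) ≃ₐ[R] R :=
  Ideal.quotientKerAlgEquivOfSurjective fun r => ⟨r ⊗ₜ 1, by simp⟩

theorem finite_pointIdeal (p : Fun c ch.U₀ →ₐ[k] R) :
    Module.Finite R ((R ⊗[k] Fun c ch.U₀) ⧸ ch.pointIdeal p) :=
  Module.Finite.equiv (ch.quotientPointIdeal p).toLinearEquiv.symm

theorem projective_pointIdeal (p : Fun c ch.U₀ →ₐ[k] R) :
    Module.Projective R ((R ⊗[k] Fun c ch.U₀) ⧸ ch.pointIdeal p) :=
  Module.Projective.of_equiv (ch.quotientPointIdeal p).toLinearEquiv.symm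

theorem mem_pointIdeal_tmul (p : Fun c ch.U₀ →ₐ[k] R) (a : Fun c ch.U₀) :
    (1 : R) ⊗ₜ a - p a ⊗ₜ 1 ∈ ch.pointIdeal p := by
  simp [pointIdeal, RingHom.mem_ker]

/-- The divisor of an `R`-point of the first chart. -/
def pointDivisor (p : Fun c ch.U₀ →ₐ[k] R) (H : FibresLocallyPrincipal k (Fun c ch.U₀)) :
    EffDiv (CR c R) :=
  haveI := ch.finite_pointIdeal p
  haveI := ch.projective_pointIdeal p
  ch.divisor (ch.pointIdeal p) H

theorem isGenBy_pointDivisor (p : Fun c ch.U₀ →ₐ[k] R)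
    (H : FibresLocallyPrincipal k (Fun c ch.U₀)) :
    (ch.pointDivisor p H).IsGenBy (overU c R ch.U₀) (ch.idealOn R (ch.pointIdeal p)) :=
  haveI := ch.finite_pointIdeal p
  haveI := ch.projective_pointIdeal p
  ch.isGenBy_divisor _ H

end Point

end CurveChart

end Fermat.Agent.Jacobian
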