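import Fermat.Agent.Jacobian.Divisor.SpanLocus

/-!
# Finite projective quotients are stable under base change
-/

set_option autoImplicit false

universe u

noncomputable section

open scoped TensorProduct

namespace Fermat.Agent.Jacobian

variable {k A : Type u} [Field k] [CommRing A] [Algebra k A]
  {R S : Type u} [CommRing R] [Algebra k R] [CommRing S] [Algebra k S] (φ : R →ₐ[k] S)
  (I : Ideal (R ⊗[k] A))

theorem spanSub_elim0 : spanSub (Fin.elim0 : Fin 0 → A) I = I.restrictScalars R :=
  sup_eq_left.2 (by rintro _ ⟨v, rfl⟩; simp [chartSec_apply])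

/-- The quotient by the image ideal is finite projective. -/
theorem finite_projective_quotient_map [Module.Finite R ((R ⊗[k] A) ⧸ I)]
    [Module.Projective R ((R ⊗[k] A) ⧸ I)] :
    Module.Finite S ((S ⊗[k] A) ⧸ I.map (Algebra.TensorProduct.map φ (AlgHom.id k A))) ∧
      Module.Projective S ((S ⊗[k] A) ⧸ I.map (Algebra.TensorProduct.map φ (AlgHom.id k A))) := by
  let : Algebra R S := φ.toAlgebra
  have : IsScalarTower k R S := IsScalarTower.of_algebraMap_eq fun a => (φ.commutes a).symm
  have hφ : φ = IsScalarTower.toAlgHom k R S := AlgHom.ext fun _ => rfl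
  rw [hφ]
  set J := I.map (Algebra.TensorProduct.map (IsScalarTower.toAlgHom k R S) (AlgHom.id k A))
  set N := I.restrictScalars R
  have hmap : Submodule.map
      (TensorProduct.AlgebraTensorModule.cancelBaseChange k R S S A).toLinearMap
      (LinearMap.range (N.subtype.baseChange S)) = J.restrictScalars S := by
    have h := map_spanSub (Fin.elim0 : Fin 0 → A) I (S := S)
    rwa [spanSub_elim0, spanSub_elim0] at h
  have hex : Function.Exact (N.subtype.baseChange S) (N.mkQ.baseChange S) :=
    lTensor_exact S (LinearMap.exact_subtype_mkQ _) (Submodule.mkQ_surjective _)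
  have hsurj : Function.Surjective (N.mkQ.baseChange S) :=
    LinearMap.lTensor_surjective S (Submodule.mkQ_surjective N)
  let e : (S ⊗[R] ((R ⊗[k] A) ⧸ N)) ≃ₗ[S] ((S ⊗[k] A) ⧸ J) :=
    ((LinearMap.quotKerEquivOfSurjective _ hsurj).symm.trans
      (Submodule.Quotient.equiv _ _
        (TensorProduct.AlgebraTensorModule.cancelBaseChange k R S S A)
        (by rw [LinearMap.exact_iff.1 hex]; exact hmap))).trans
      (Submodule.Quotient.restrictScalarsEquiv S J)
  have : Module.Finite R ((R ⊗[k] A) ⧸ N) :=
    Module.Finite.equiv (Submodule.Quotient.restrictScalarsEquiv R I).symm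
  have : Module.Projective R ((R ⊗[k] A) ⧸ N) :=
    Module.Projective.of_equiv (Submodule.Quotient.restrictScalarsEquiv R I).symm
  exact ⟨Module.Finite.equiv e, Module.Projective.of_equiv e⟩

end Fermat.Agent.Jacobian
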