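import Mathlib.RingTheory.Smooth.Basic
import Mathlib.RingTheory.Idempotents
import Mathlib.LinearAlgebra.Basis.VectorSpace
import Mathlib.LinearAlgebra.Matrix.DotProduct
import Fermat.Agent.Jacobian.Divisor.Ideal
import Fermat.Agent.Jacobian.Divisor.Chart

/-!
# Smoothness of the charts

Divisor ideals are invertible, so they lift along square zero extensions: the chart ring is
formally smooth.
-/

set_option autoImplicit false

universe u

noncomputable section

open scoped TensorProduct Matrix
open Polynomial

namespace Fermat.Agent.Jacobian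

/-- A divisor ideal is the image of an idempotent matrix, with exact kernel. -/
theorem exists_idempotent_presentation {k A R : Type u} [Field k] [CommRing A] [Algebra k A]
    [Algebra k[X] A] [IsScalarTower k k[X] A] [Module.Free k[X] A] [Module.Finite k[X] A]
    [CommRing R] [Algebra k R] (H : FibresLocallyPrincipal k A) (I : Ideal (R ⊗[k] A))
    [Module.Finite R ((R ⊗[k] A) ⧸ I)] [Module.Projective R ((R ⊗[k] A) ⧸ I)] :
    ∃ (m : ℕ) (v : Fin m → R ⊗[k] A) (C : Matrix (Fin m) (Fin m) (R ⊗[k] A)),
      IsIdempotentElem C ∧ v ᵥ* C = v ∧ Ideal.span (Set.range v) = I ∧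
        ∀ w, v ⬝ᵥ w = 0 → C *ᵥ w = 0 := by
  classical
  obtain ⟨χ, hχ, hgI⟩ := exists_monic_aeval_mem I
  have hreg := aeval_xR_mem_nonZeroDivisors (k := k) (A := A) (R := R) hχ
  generalize Polynomial.aeval (xR k A R) χ = g at hgI hreg
  have hcancel : ∀ {x y : R ⊗[k] A}, g * x = g * y → x = y := fun {x y} h =>
    sub_eq_zero.1 (mem_nonZeroDivisors_iff_right.1 hreg _ (by rw [sub_mul, mul_comm x, mul_comm y, h, sub_self]))
  let J : Ideal (R ⊗[k] A) :=
    { carrier := {c | ∀ a ∈ I, g ∣ c * a}
      add_mem' := fun {x y} hx hy a ha => by rw [add_mul]; exact dvd_add (hx a ha) (hy a ha)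
      zero_mem' := fun a _ => by simp
      smul_mem' := fun c x hx a ha => by
        rw [smul_eq_mul, mul_assoc]
        exact (hx a ha).mul_left c }
  obtain ⟨G, hG⟩ := fg_of_projective I
  have hgIJ : g ∈ I * J := by
    by_contra hg
    obtain ⟨P, hP, hTP⟩ := Ideal.exists_le_maximal ((I * J).colon {g}) fun h => hg (by
      have h1 : (1 : R ⊗[k] A) ∈ (I * J).colon {g} := h ▸ Submodule.mem_top
      simpa [Submodule.mem_colon_singleton] using h1)
    obtain ⟨s, hs, f, hf, hdvd, hreg'⟩ := exists_isLocGen I H P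
    obtain ⟨b, hb⟩ := hdvd g hgI
    have h1 : ∀ a ∈ I, ∃ n : ℕ, g ∣ s ^ n * b * a := fun a ha => by
      obtain ⟨c, hc⟩ := hdvd a ha
      obtain ⟨n, hn⟩ := hreg' (b * a - g * c) (by linear_combination g * hc - a * hb)
      exact ⟨n, s ^ n * c, by linear_combination hn⟩
    choose n hn using h1
    let N := G.attach.sup fun a => n a.1 (hG ▸ Ideal.subset_span a.2)
    have hJ : s ^ N * b ∈ J := by
      intro a ha
      rw [← hG] at ha
      induction ha using Submodule.span_induction with
      | mem a ha =>
        have hle : n a (hG ▸ Ideal.subset_span ha) ≤ N :=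
          Finset.le_sup (f := fun a : G => n a.1 (hG ▸ Ideal.subset_span a.2))
            (Finset.mem_attach _ ⟨a, ha⟩)
        obtain ⟨d, hd⟩ := Nat.exists_eq_add_of_le hle
        refine ((hn a (hG ▸ Ideal.subset_span ha)).mul_left (s ^ d)).trans (dvd_of_eq ?_)
        rw [hd, pow_add]; ring
      | zero => simp
      | add a c _ _ ha hc => rw [mul_add]; exact dvd_add ha hc
      | smul c a _ h => rw [smul_eq_mul, mul_left_comm]; exact h.mul_left c
    have hT : s ^ (N + 1) ∈ (I * J).colon {g} := by
      rw [Submodule.mem_colon_singleton, smul_eq_mul,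
        show s ^ (N + 1) * g = f * (s ^ N * b) by linear_combination (s ^ N) * hb]
      exact Ideal.mul_mem_mul hf hJ
    exact hs (hP.isPrime.mem_of_pow_mem _ (hTP hT))
  obtain ⟨m, v, j, hv, hj, hgv⟩ : ∃ (m : ℕ) (v j : Fin m → R ⊗[k] A),
      (∀ i, v i ∈ I) ∧ (∀ i, j i ∈ J) ∧ g = ∑ i, v i * j i := by
    refine Submodule.mul_induction_on hgIJ (fun a ha c hc =>
      ⟨1, fun _ => a, fun _ => c, fun _ => ha, fun _ => hc, by simp⟩) ?_
    rintro x y ⟨m, v, j, hv, hj, rfl⟩ ⟨m', v', j', hv', hj', rfl⟩
    refine ⟨m + m', Fin.append v v', Fin.append j j', ?_, ?_, ?_⟩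
    · exact fun i => Fin.addCases (fun i => by simpa using hv i) (fun i => by simpa using hv' i) i
    · exact fun i => Fin.addCases (fun i => by simpa using hj i) (fun i => by simpa using hj' i) i
    · simp [Fin.sum_univ_add]
  choose C hC using fun p q => hj p (v q) (hv q)
  refine ⟨m, v, Matrix.of C, ?_, ?_, ?_, ?_⟩
  · ext p q
    refine hcancel (hcancel ?_)
    simp only [Matrix.mul_apply, Matrix.of_apply, Finset.mul_sum]
    have h2 : ∀ l, g * (g * (C p l * C l q)) = j p * v q * (v l * j l) := fun l => by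
      linear_combination -(g * C l q) * hC p l - (j p * v l) * hC l q
    simp only [h2, ← Finset.mul_sum, ← hgv]
    linear_combination g * hC p q
  · funext q
    refine hcancel ?_
    simp only [Matrix.vecMul, dotProduct, Matrix.of_apply, Finset.mul_sum]
    have h2 : ∀ l, g * (v l * C l q) = v q * (v l * j l) := fun l => by
      linear_combination -(v l) * hC l q
    simp only [h2, ← Finset.mul_sum, ← hgv]
    ring
  · refine le_antisymm (Ideal.span_le.2 (by rintro _ ⟨i, rfl⟩; exact hv i)) fun a ha => ?_
    choose d hd using fun p => hj p a ha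
    have : a = ∑ p, v p * d p := by
      refine hcancel ?_
      rw [Finset.mul_sum]
      have h2 : ∀ p, g * (v p * d p) = a * (v p * j p) := fun p => by
        linear_combination -(v p) * hd p
      simp only [h2, ← Finset.mul_sum, ← hgv]
      ring
    rw [this]
    exact sum_mem fun p _ => Ideal.mul_mem_right _ _ (Ideal.subset_span ⟨p, rfl⟩)
  · intro w hw
    funext p
    refine hcancel ?_
    simp only [Matrix.mulVec, dotProduct, Matrix.of_apply, Finset.mul_sum, Pi.zero_apply, mul_zero]
    have h2 : ∀ q, g * (C p q * w q) = j p * (v q * w q) := fun q => by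
      linear_combination -(w q) * hC p q
    simp only [h2, ← Finset.mul_sum]
    rw [dotProduct] at hw
    simp [hw]

section SquareZero

variable {k A B : Type u} [Field k] [CommRing A] [Algebra k A] [CommRing B] [Algebra k B]
  (N : Ideal B)

/-- The reduction `A_B → A_{B/N}`. -/
def reduceMap (A : Type u) [CommRing A] [Algebra k A] :
    B ⊗[k] A →ₐ[k] (B ⧸ N) ⊗[k] A :=
  Algebra.TensorProduct.map (Ideal.Quotient.mkₐ k N) (AlgHom.id k A)

theorem reduceMap_smul (b : B) (z : B ⊗[k] A) :
    reduceMap N A (b • z) = Ideal.Quotient.mk N b • reduceMap N A z := by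
  rw [Algebra.smul_def, map_mul]
  exact (Algebra.smul_def (Ideal.Quotient.mk N b) (reduceMap N A z)).symm

theorem mem_smul_top_of_reduceMap_eq_zero {z : B ⊗[k] A} (h : reduceMap N A z = 0) :
    z ∈ N • (⊤ : Submodule B (B ⊗[k] A)) := by
  let β := Module.Free.chooseBasis k A
  let bB := Algebra.TensorProduct.basis B β
  let bQ := Algebra.TensorProduct.basis (B ⧸ N) β
  have hz := bB.linearCombination_repr z
  rw [Finsupp.linearCombination_apply, Finsupp.sum] at hz
  have hcoef : ∀ i ∈ (bB.repr z).support, Ideal.Quotient.mk N (bB.repr z i) = 0 := by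
    have h' : ∑ i ∈ (bB.repr z).support, Ideal.Quotient.mk N (bB.repr z i) • bQ i = 0 := by
      rw [← h]
      conv_rhs => rw [← hz]
      rw [map_sum]
      refine Finset.sum_congr rfl fun i _ => ?_
      rw [reduceMap_smul]
      simp [bQ, bB, reduceMap]
    exact fun i hi => linearIndependent_iff'.1 bQ.linearIndependent _ _ h' i hi
  rw [← hz]
  exact Submodule.sum_mem _ fun i hi => Submodule.smul_mem_smul
    (Ideal.Quotient.eq_zero_iff_mem.1 (hcoef i hi)) Submodule.mem_top

theorem reduceMap_surjective : Function.Surjective (reduceMap (k := k) N A) :=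
  TensorProduct.map_surjective Ideal.Quotient.mk_surjective Function.surjective_id

theorem mul_eq_zero_of_sq_eq_bot {N : Ideal B} (hN : N ^ 2 = ⊥) {a b : B} (ha : a ∈ N)
    (hb : b ∈ N) : a * b = 0 := by
  have : a * b ∈ N ^ 2 := by rw [pow_two]; exact Ideal.mul_mem_mul ha hb
  simpa [hN] using this

theorem reduceMap_mul_eq_zero {N : Ideal B} (hN : N ^ 2 = ⊥) {z w : B ⊗[k] A}
    (hz : reduceMap N A z = 0) (hw : reduceMap N A w = 0) : z * w = 0 := by
  refine Submodule.smul_induction_on (mem_smul_top_of_reduceMap_eq_zero N hz)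
    (fun n hn m _ => ?_) fun x y hx hy => by rw [add_mul, hx, hy, add_zero]
  refine Submodule.smul_induction_on (mem_smul_top_of_reduceMap_eq_zero N hw)
    (fun n' hn' m' _ => ?_) fun x y hx hy => by rw [mul_add, hx, hy, add_zero]
  rw [smul_mul_smul_comm, mul_eq_zero_of_sq_eq_bot hN hn hn', zero_smul]

end SquareZero

/-- Chart data lift along square zero extensions. -/
theorem exists_lift_chartData {k A B : Type u} [Field k] [CommRing A] [Algebra k A] [CommRing B]
    [Algebra k B] [Algebra k[X] A] [IsScalarTower k k[X] A] [Module.Free k[X] A]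
    [Module.Finite k[X] A] (H : FibresLocallyPrincipal k A) {g : ℕ} {b : Fin g → A}
    (N : Ideal B) (hN : N ^ 2 = ⊥) (D' : ChartData k b (B ⧸ N)) :
    ∃ D : ChartData k b B, D.map (Ideal.Quotient.mkₐ k N) = D' := by
  classical
  set P := reduceMap (k := k) N A with hP
  have := D'.isChartIdeal_ideal.free
  have := D'.isChartIdeal_ideal.finite
  obtain ⟨m, v, C, hC, hvC, hspan, hker⟩ := exists_idempotent_presentation H D'.ideal
  obtain ⟨C', hC', hCC'⟩ := exists_isIdempotentElem_eq_of_ker_isNilpotent
    (f := (P.toRingHom.mapMatrix : Matrix (Fin m) (Fin m) (B ⊗[k] A) →+* _)) (fun x hx => ⟨2, by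
      ext p q
      rw [pow_two, Matrix.mul_apply, Matrix.zero_apply]
      have h0 := RingHom.mem_ker.1 hx
      refine Finset.sum_eq_zero fun l _ => reduceMap_mul_eq_zero hN ?_ ?_
      · have h1 := congrArg (fun M : Matrix (Fin m) (Fin m) _ => M p l) h0
        simpa using h1
      · have h1 := congrArg (fun M : Matrix (Fin m) (Fin m) _ => M l q) h0
        simpa using h1⟩)
    C ⟨Matrix.of fun p q => (reduceMap_surjective N (C p q)).choose,
      Matrix.ext fun p q => (reduceMap_surjective N (C p q)).choose_spec⟩ hC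
  choose v' hv' using fun i => reduceMap_surjective (k := k) N (v i)
  set w := v' ᵥ* C' with hw
  have hPw : ∀ l, P (w l) = v l := by
    intro l
    have h := congrFun hvC l
    simp only [hw, Matrix.vecMul, dotProduct, map_sum, map_mul] at h ⊢
    rw [← h]
    refine Finset.sum_congr rfl fun i _ => ?_
    rw [hv' i, ← hCC']
    rfl
  set I : Ideal (B ⊗[k] A) := Ideal.span (Set.range w)
  have hI : I.map P = D'.ideal := by
    rw [Ideal.map_span, ← Set.range_comp, ← hspan]
    congr 2
    exact funext hPw
  obtain ⟨σ, hσ⟩ := (Ideal.Quotient.mkₐ k N).toLinearMap.exists_rightInverse_of_surjective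
    (LinearMap.range_eq_top.2 Ideal.Quotient.mk_surjective)
  let Q : B ⊗[k] A →ₗ[B] (Fin g → B) :=
    (((LinearMap.pi fun i => σ.comp (LinearMap.proj i)) : (Fin g → B ⧸ N) →ₗ[k] (Fin g → B)).comp
      D'.q).liftBaseChange B
  have hQ : ∀ z i, Ideal.Quotient.mk N (Q z i) = D'.qR (P z) i := by
    intro z i
    induction z using TensorProduct.induction_on with
    | zero => simp
    | add x y hx hy => simp [hx, hy]
    | tmul r a =>
      have hs := LinearMap.congr_fun hσ (D'.q a i)
      simp only [LinearMap.comp_apply, AlgHom.toLinearMap_apply, Ideal.Quotient.mkₐ_eq_mk,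
        LinearMap.id_apply] at hs
      simp [Q, hP, reduceMap, ChartData.qR_tmul, hs]
  have hPsec : ∀ c : Fin g → B, P (chartSec k b B c) =
      chartSec k b (B ⧸ N) fun i => Ideal.Quotient.mk N (c i) := fun c => by
    simp [chartSec_apply, hP, reduceMap, map_sum]
  have step : ∀ z, ∃ c, ∃ i ∈ I, P (z - chartSec k b B c - i) = 0 := by
    intro z
    have h1 : P (z - chartSec k b B (Q z)) ∈ I.map P := by
      rw [hI, map_sub, hPsec, show (fun i => Ideal.Quotient.mk N (Q z i)) = D'.qR (P z) from
        funext (hQ z)]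
      exact D'.sub_sec_mem _
    obtain ⟨i, hi, he⟩ := (Ideal.mem_map_iff_of_surjective P (reduceMap_surjective N)).1 h1
    exact ⟨Q z, i, hi, by rw [map_sub, ← he, sub_self]⟩
  have hsmall : ∀ z, P z = 0 → ∃ c, z - chartSec k b B c ∈ I := by
    intro z hz
    refine Submodule.smul_induction_on (mem_smul_top_of_reduceMap_eq_zero N hz)
      (fun n hn y _ => ?_) ?_
    · obtain ⟨c, i, hi, he⟩ := step y
      refine ⟨n • c, ?_⟩
      have h0 : n • (y - chartSec k b B c - i) = 0 := by
        refine Submodule.smul_induction_on (mem_smul_top_of_reduceMap_eq_zero N he)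
          (fun n' hn' y' _ => ?_) fun a a' ha ha' => by rw [smul_add, ha, ha', add_zero]
        rw [smul_smul, mul_eq_zero_of_sq_eq_bot hN hn hn', zero_smul]
      rw [map_smul, ← smul_sub]
      rw [smul_sub, sub_eq_zero] at h0
      rw [h0, Algebra.smul_def]
      exact I.mul_mem_left _ hi
    · rintro x y ⟨c, hc⟩ ⟨c', hc'⟩
      exact ⟨c + c', by rw [map_add, add_sub_add_comm]; exact add_mem hc hc'⟩
  have hchart : IsChartIdeal b I := by
    constructor
    · rw [injective_iff_map_eq_zero]
      intro c hc
      have hcI : chartSec k b B c ∈ I := Ideal.Quotient.eq_zero_iff_mem.1 hc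
      have hcN : ∀ i, c i ∈ N := fun i => by
        have h1 := Ideal.mem_map_of_mem P hcI
        rw [hI, hPsec, D'.mem_ideal, D'.qR_sec] at h1
        exact Ideal.Quotient.eq_zero_iff_mem.1 (congrFun h1 i)
      obtain ⟨a, ha⟩ := (Ideal.mem_span_range_iff_exists_fun).1 hcI
      have ha' : w ⬝ᵥ a = chartSec k b B c := by
        rw [← ha, dotProduct]
        exact Finset.sum_congr rfl fun i _ => mul_comm _ _
      have hPa : v ⬝ᵥ (fun l => P (a l)) = 0 := by
        have h := congrArg P ha'
        rw [hPsec, show (fun i => Ideal.Quotient.mk N (c i)) = 0 from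
          funext fun i => Ideal.Quotient.eq_zero_iff_mem.2 (hcN i), map_zero] at h
        rw [← h]
        simp [dotProduct, hPw, map_sum]
      have hz : ∀ l, P ((C' *ᵥ a) l) = 0 := fun l => by
        have h := congrFun (hker _ hPa) l
        rw [← hCC'] at h
        simpa [Matrix.mulVec, dotProduct, map_sum] using h
      have hQ0 : ∀ x y, x ∈ I → P y = 0 → Q (x * y) = 0 := by
        intro x y hx hy
        refine Submodule.smul_induction_on (mem_smul_top_of_reduceMap_eq_zero N hy)
          (fun n hn y' _ => ?_) fun p q hp hq => by rw [mul_add, map_add, hp, hq, add_zero]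
        rw [mul_smul_comm, map_smul]
        ext i
        refine mul_eq_zero_of_sq_eq_bot hN hn (Ideal.Quotient.eq_zero_iff_mem.1 ?_)
        rw [hQ]
        have := Ideal.mem_map_of_mem P (I.mul_mem_right y' hx)
        rw [hI, D'.mem_ideal] at this
        rw [this]
        rfl
      have hQc : Q (chartSec k b B c) = 0 := by
        rw [← ha', show w ⬝ᵥ a = w ⬝ᵥ (C' *ᵥ a) by
          rw [Matrix.dotProduct_mulVec, hw, Matrix.vecMul_vecMul, hC'.eq], dotProduct, map_sum]
        exact Finset.sum_eq_zero fun l _ => hQ0 _ _ (Ideal.subset_span ⟨l, rfl⟩) (hz l)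
      have hQb : ∀ i j, Ideal.Quotient.mk N (Q ((1 : B) ⊗ₜ b i) j) =
          (Pi.single i 1 : Fin g → B ⧸ N) j := fun i j => by
        rw [hQ]
        simp [hP, reduceMap, ChartData.qR_tmul, D'.q_basis]
      ext j
      have hj : ∑ i, c i * Q ((1 : B) ⊗ₜ b i) j = 0 := by
        have h := congrFun hQc j
        rw [chartSec, Fintype.linearCombination_apply, map_sum] at h
        simpa using h
      rw [Pi.zero_apply, ← hj]
      have he : ∀ i, c i * Q ((1 : B) ⊗ₜ b i) j = if i = j then c i else 0 := fun i => by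
        have hd : Q ((1 : B) ⊗ₜ b i) j - (if i = j then 1 else 0) ∈ N := by
          rw [← Ideal.Quotient.eq_zero_iff_mem, map_sub, hQb, Pi.single_apply]
          simp [eq_comm, apply_ite (Ideal.Quotient.mk N)]
        have h0 := mul_eq_zero_of_sq_eq_bot hN (hcN i) hd
        rw [mul_sub, sub_eq_zero, mul_ite, mul_one, mul_zero] at h0
        exact h0
      simp [he]
    · intro y
      obtain ⟨z, rfl⟩ := Ideal.Quotient.mk_surjective y
      obtain ⟨c, i, hi, he⟩ := step z
      obtain ⟨c', hc'⟩ := hsmall _ he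
      refine ⟨c + c', (Ideal.Quotient.eq.2 ?_).symm⟩
      have h2 := add_mem hc' hi
      rw [map_add]
      convert! h2 using 1
      abel
  refine ⟨ChartData.ofIdeal hchart, (chartDataEquiv b (B ⧸ N)).injective (Subtype.ext ?_)⟩
  show ((ChartData.ofIdeal hchart).map _).ideal = D'.ideal
  rw [ChartData.ideal_map, ChartData.ideal_ofIdeal]
  exact hI

/-- The chart rings are formally smooth. -/
theorem formallySmooth_chartRing {k A : Type u} [Field k] [CommRing A] [Algebra k A]
    [Algebra k[X] A] [IsScalarTower k k[X] A] [Module.Free k[X] A] [Module.Finite k[X] A]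
    (H : FibresLocallyPrincipal k A) {g : ℕ} (b : Fin g → A) :
    Algebra.FormallySmooth k (ChartRing k b) := by
  refine Algebra.FormallySmooth.of_comp_surjective fun B _ _ N hN φ => ?_
  obtain ⟨D, hD⟩ := exists_lift_chartData H N hN (chartHomEquiv b (B ⧸ N) φ)
  refine ⟨(chartHomEquiv b B).symm D, (chartHomEquiv b (B ⧸ N)).injective ?_⟩
  rw [← hD]
  conv_rhs => rw [← (chartHomEquiv b B).apply_symm_apply D]
  rfl

/-- The chart rings are smooth. -/
theorem smooth_chartRing {k A : Type u} [Field k] [CommRing A] [Algebra k A]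
    [Algebra k[X] A] [IsScalarTower k k[X] A] [Module.Free k[X] A] [Module.Finite k[X] A]
    [Algebra.FiniteType k A] (H : FibresLocallyPrincipal k A) {g : ℕ} (b : Fin g → A) :
    Algebra.Smooth k (ChartRing k b) :=
  ⟨formallySmooth_chartRing H b, finitePresentation_chartRing b⟩

end Fermat.Agent.Jacobian
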