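import Fermat.Agent.Jacobian.Divisor.Chart
import Mathlib.RingTheory.Spectrum.Prime.Module
import Mathlib.RingTheory.LocalRing.Module
import Mathlib.RingTheory.LocalRing.ResidueField.Ideal
import Mathlib.LinearAlgebra.TensorProduct.Tower
import Mathlib.RingTheory.TensorProduct.Quotient
import Mathlib.LinearAlgebra.TensorProduct.RightExactness

/-!
# The locus where `b` spans the quotient by an ideal
-/

set_option autoImplicit false

universe u

noncomputable section

open scoped TensorProduct

namespace Fermat.Agent.Jacobian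

variable {k A : Type u} [Field k] [CommRing A] [Algebra k A] {g : ℕ}
  {R : Type u} [CommRing R] [Algebra k R] (b : Fin g → A) (I : Ideal (R ⊗[k] A))

/-- `I` plus the span of the `1 ⊗ bᵢ`. -/
def spanSub : Submodule R (R ⊗[k] A) :=
  I.restrictScalars R ⊔ LinearMap.range (chartSec k b R)

theorem surjective_chartQuot_iff :
    Function.Surjective (chartQuot b I) ↔ spanSub b I = ⊤ := by
  refine ⟨fun h => eq_top_iff.2 fun z _ => ?_, fun h y => ?_⟩
  · obtain ⟨v, hv⟩ := h (Ideal.Quotient.mk I z)
    have : z - chartSec k b R v ∈ I := Ideal.Quotient.eq.1 hv.symm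
    exact Submodule.mem_sup.2 ⟨_, this, _, ⟨v, rfl⟩, sub_add_cancel _ _⟩
  · obtain ⟨z, rfl⟩ := Ideal.Quotient.mk_surjective y
    obtain ⟨a, ha, _, ⟨v, rfl⟩, e⟩ := Submodule.mem_sup.1 (h.ge (Submodule.mem_top (x := z)))
    refine ⟨v, (Ideal.Quotient.eq.2 ?_).symm⟩
    simpa [← e] using ha

/-- The points over which `b` spans the quotient. -/
def spanLocus : Set (PrimeSpectrum R) :=
  (Module.support R ((R ⊗[k] A) ⧸ spanSub b I))ᶜ

theorem finite_quotient_spanSub [Module.Finite R ((R ⊗[k] A) ⧸ I)] :
    Module.Finite R ((R ⊗[k] A) ⧸ spanSub b I) := by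
  refine Module.Finite.of_surjective
    ((I.restrictScalars R).mapQ (spanSub b I) LinearMap.id le_sup_left ∘ₗ
      (Submodule.Quotient.restrictScalarsEquiv R I).symm.toLinearMap) ?_
  intro y
  obtain ⟨z, rfl⟩ := Submodule.mkQ_surjective _ y
  refine ⟨Submodule.Quotient.restrictScalarsEquiv R I (Submodule.Quotient.mk z), ?_⟩
  rw [LinearMap.comp_apply, LinearEquiv.coe_coe, LinearEquiv.symm_apply_apply]
  rfl

theorem isOpen_spanLocus [Module.Finite R ((R ⊗[k] A) ⧸ I)] : IsOpen (spanLocus b I) := by
  have := finite_quotient_spanSub b I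
  exact Module.isClosed_support.isOpen_compl

variable {S : Type u} [CommRing S] [Algebra k S] [Algebra R S] [IsScalarTower k R S]

theorem map_spanSub :
    Submodule.map (TensorProduct.AlgebraTensorModule.cancelBaseChange k R S S A).toLinearMap
        (LinearMap.range ((spanSub b I).subtype.baseChange S)) =
      spanSub b (I.map (Algebra.TensorProduct.map (IsScalarTower.toAlgHom k R S) (AlgHom.id k A))) := by
  set φ : R ⊗[k] A →ₐ[k] S ⊗[k] A :=
    Algebra.TensorProduct.map (IsScalarTower.toAlgHom k R S) (AlgHom.id k A) with hφ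
  set e := TensorProduct.AlgebraTensorModule.cancelBaseChange k R S S A with he
  have hz : ∀ (s : S) (z : R ⊗[k] A), e (s ⊗ₜ z) = s • φ z := by
    intro s z
    induction z using TensorProduct.induction_on with
    | zero => simp
    | add x y hx hy => simp [TensorProduct.tmul_add, smul_add, hx, hy]
    | tmul r a =>
      simp only [he, hφ, TensorProduct.AlgebraTensorModule.cancelBaseChange_tmul,
        Algebra.TensorProduct.map_tmul, IsScalarTower.coe_toAlgHom', AlgHom.id_apply,
        TensorProduct.smul_tmul', smul_eq_mul]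
      rw [Algebra.smul_def r s, mul_comm]
  have hsec : ∀ i, φ (chartSec k b R (Pi.single i 1)) = chartSec k b S (Pi.single i 1) := by
    intro i
    rw [chartSec_apply, chartSec_apply, map_sum]
    exact Finset.sum_congr rfl fun j _ => by
      rcases eq_or_ne j i with rfl | h <;> simp [*, hφ]
  refine le_antisymm ?_ ?_
  · rw [Submodule.map_le_iff_le_comap]
    rintro _ ⟨w, rfl⟩
    induction w using TensorProduct.induction_on with
    | zero => simp
    | add x y hx hy => rw [map_add]; exact Submodule.add_mem _ hx hy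
    | tmul s z =>
      rw [LinearMap.baseChange_tmul, Submodule.mem_comap, LinearEquiv.coe_coe, hz]
      refine Submodule.smul_mem _ _ ?_
      obtain ⟨a, ha, _, ⟨v, rfl⟩, e'⟩ := Submodule.mem_sup.1 z.2
      rw [Submodule.subtype_apply, ← e', map_add]
      refine Submodule.add_mem_sup (Ideal.mem_map_of_mem _ ha)
        ⟨fun i => algebraMap R S (v i), ?_⟩
      simp [chartSec_apply, hφ]
  · have hgen : ∀ z ∈ spanSub b I, ∀ s : S,
        s • φ z ∈ Submodule.map e.toLinearMap (LinearMap.range ((spanSub b I).subtype.baseChange S)) :=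
      fun z hz' s => ⟨s ⊗ₜ z, ⟨s ⊗ₜ ⟨z, hz'⟩, rfl⟩, hz s z⟩
    refine sup_le (fun w hw => ?_) ?_
    · refine (one_mul w) ▸ Submodule.span_induction (p := fun w _ => ∀ u : S ⊗[k] A, u * w ∈
        Submodule.map e.toLinearMap (LinearMap.range ((spanSub b I).subtype.baseChange S)))
        ?_ ?_ ?_ ?_ hw 1
      · rintro _ ⟨z, hz', rfl⟩ u
        induction u using TensorProduct.induction_on with
        | zero => simp
        | add x y hx hy => rw [add_mul]; exact Submodule.add_mem _ hx hy
        | tmul s a =>
          have : (s ⊗ₜ[k] a) * φ z = s • φ ((1 ⊗ₜ a) * z) := by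
            rw [map_mul, ← smul_mul_assoc]; simp [hφ, TensorProduct.smul_tmul']
          rw [this]
          exact hgen _ (Submodule.mem_sup_left (I.mul_mem_left _ hz')) s
      · intro u; simp
      · intro x y _ _ hx hy u; rw [mul_add]; exact Submodule.add_mem _ (hx u) (hy u)
      · intro a x _ hx u; rw [smul_eq_mul, ← mul_assoc]; exact hx _
    · rintro _ ⟨v, rfl⟩
      rw [pi_eq_sum_univ' v, map_sum]
      refine Submodule.sum_mem _ fun i _ => ?_
      rw [map_smul, ← hsec i]
      exact hgen _ (Submodule.mem_sup_right ⟨_, rfl⟩) _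

/-- `b` spans after base change iff all points land in the span locus. -/
theorem surjective_chartQuot_map_iff [Module.Finite R ((R ⊗[k] A) ⧸ I)] :
    Function.Surjective (chartQuot b (I.map
        (Algebra.TensorProduct.map (IsScalarTower.toAlgHom k R S) (AlgHom.id k A)))) ↔
      ∀ q : PrimeSpectrum S, PrimeSpectrum.comap (algebraMap R S) q ∈ spanLocus b I := by
  have := finite_quotient_spanSub b I
  rw [surjective_chartQuot_iff, ← map_spanSub, Submodule.map_eq_top_iff]
  have h1 : LinearMap.range ((spanSub b I).subtype.baseChange S) = ⊤ ↔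
      Subsingleton (S ⊗[R] ((R ⊗[k] A) ⧸ spanSub b I)) := by
    have hex : Function.Exact ((spanSub b I).subtype.baseChange S)
        ((spanSub b I).mkQ.baseChange S) :=
      lTensor_exact S (LinearMap.exact_subtype_mkQ _) (Submodule.mkQ_surjective _)
    rw [← LinearMap.exact_iff.1 hex, LinearMap.ker_eq_top]
    refine ⟨fun h => subsingleton_of_forall_eq 0 fun y => ?_, fun h => LinearMap.ext fun _ => Subsingleton.elim _ _⟩
    obtain ⟨x, rfl⟩ := LinearMap.lTensor_surjective S (Submodule.mkQ_surjective (spanSub b I)) y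
    exact LinearMap.congr_fun h x
  rw [h1]
  set N := (R ⊗[k] A) ⧸ spanSub b I
  rw [← Module.support_eq_empty_iff (R := S), Set.eq_empty_iff_forall_notMem]
  refine forall_congr' fun q => ?_
  set p := PrimeSpectrum.comap (algebraMap R S) q with hp
  let ι : p.asIdeal.ResidueField →+* q.asIdeal.ResidueField :=
    Ideal.ResidueField.map p.asIdeal q.asIdeal (algebraMap R S) rfl
  let : Algebra p.asIdeal.ResidueField q.asIdeal.ResidueField := ι.toAlgebra
  have : IsScalarTower R p.asIdeal.ResidueField q.asIdeal.ResidueField :=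
    IsScalarTower.of_algebraMap_eq fun r =>
      (IsScalarTower.algebraMap_apply R S q.asIdeal.ResidueField r).trans
        (Ideal.ResidueField.map_algebraMap _ _ _ rfl r).symm
  show q ∉ Module.support S (S ⊗[R] N) ↔ p ∉ Module.support R N
  rw [Module.mem_support_iff_nontrivial_residueField_tensorProduct,
    Module.mem_support_iff_nontrivial_residueField_tensorProduct, not_iff_not,
    Equiv.nontrivial_congr (TensorProduct.AlgebraTensorModule.cancelBaseChange R S q.asIdeal.ResidueField
      q.asIdeal.ResidueField N).toEquiv,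
    ← Equiv.nontrivial_congr (TensorProduct.AlgebraTensorModule.cancelBaseChange R p.asIdeal.ResidueField
      q.asIdeal.ResidueField q.asIdeal.ResidueField N).toEquiv,
    ← Module.finrank_pos_iff (R := q.asIdeal.ResidueField),
    ← Module.finrank_pos_iff (R := p.asIdeal.ResidueField), Module.finrank_baseChange]

end Fermat.Agent.Jacobian
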